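/-
S56, WALL W4, CASE C, BLOCK D (sub-architect helper26): definitions and the EXACT statements (as
`Prop`s) of the leaves of the block.  FIXED.  Deliverables of the block: `T3Prop`, `OrderPProp`
(S56/W4/C/Defs.lean).  Files of the block: `Fermat/Agent/S56/W4/C/D/*.lean`, one owner per file,
namespace `Fermat.Agent.S56.SS`; a leaf proves `theorem <name> : <Name>Prop ...`.

Math (`v` = valuation of `P`, `v(p) = 1`, `I` = inertia, `R' = inertiaRing P`, `n = |W|`):
* an `I`-order `O` on `W` has an `R'`-basis `b_i` (`i ∈ W`) which is a `ℚ̄`-basis of all functions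
  (BASIS: Galois descent);
* characters are `P`-combinations of the `b_i` (CHAR, port of Lib/FFL/Char.lean): for a perfect
  pairing `X : W × W → μ` (PAIR) write `X a = ∑ i, β i a • b i`; then `β i a ∈ P`;
* `det (b i w) * det (β i a) = det (X a w)` and `det (X a w) ^ 4 = n ^ (2 n)` (DUALDET);
* the transported action `act'` on the index `a` (`X (act' σ a) (act σ w) = σ (X a w)`) is again
  an action of `I`; `(W, act')` is simple/commutative if `(W, act)` is (DUALACT);
  `β i (act' σ a) = σ (β i a)`, and `β i a - β i 0 ∈ 𝔪_P` on `augI act'` (DUALFAM);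
* `f w - f 0 ∈ 𝔪_P` for `f ∈ O.alg`, `w ∈ augI act` (RED);
* a commutative irreducible action on a finite group is through a cyclic group (SCHUR);
* a free action of a cyclic group of order `d` on `W \ 0`: `W ≃ Unit ⊕ Fin m × Fin d` (ORBIT);
* DISC (helper26, Lib/FFL/FB/Disc.lean): a matrix with columns `g ^ s (x i j)`, `x i j ∈ 𝔪_P`,
  has `v(det) ≥ m (d + 1) / 2`, with equality only if some `x i j` has valuation `1 / d`.
Assembly (helper26): `2 n v(n) = 4 v(det b) + 4 v(det β) ≥ 2 (2 (n - 1) + m + m')`.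
-/
import Fermat.Agent.S56.W4.C.Defs

set_option autoImplicit false

namespace Fermat.Agent.S56.SS

open Fermat.Agent.FFL

local notation "Kb" => AlgebraicClosure ℚ
local notation "GK" => (AlgebraicClosure ℚ ≃ₐ[ℚ] AlgebraicClosure ℚ)

/-! ### Definitions -/

/-- `b` (indexed by `W` itself) is a basis of the `I`-order `O` over `R'`, linearly independent
over `ℚ̄`. -/
def IsOrdBasis {P : ValuationSubring Kb} {W : Type} [AddCommGroup W] [Fintype W]
    {act : GK → W → W} (O : IOrd P W act) (b : W → W → Kb) : Prop :=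
  (∀ i, b i ∈ O.alg) ∧ LinearIndependent Kb b ∧
  ∀ f ∈ O.alg, ∃ c : W → Kb, (∀ i, c i ∈ inertiaRing P) ∧ f = ∑ i, c i • b i

/-- `χ : W → ℚ̄` is a character. -/
def IsCharFun {W : Type} [AddCommGroup W] (χ : W → Kb) : Prop :=
  χ 0 = 1 ∧ ∀ w w', χ (w + w') = χ w * χ w'

/-- `X : W × W → ℚ̄ˣ` is a perfect pairing: `a ↦ X a` is an isomorphism of `W` onto the group of
characters of `W`. -/
def IsPairing {W : Type} [AddCommGroup W] (X : W → W → Kb) : Prop :=
  (∀ a, IsCharFun (X a)) ∧ (∀ a a' w, X (a + a') w = X a w * X a' w) ∧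
  (∀ a, (∀ w, X a w = 1) → a = 0) ∧ (∀ w, (∀ a, X a w = 1) → w = 0) ∧
  ∀ χ : W → Kb, IsCharFun χ → ∃ a, χ = X a

/-- `act'` is the action on the index of the pairing `X` dual to `act`. -/
def IsDualAct (P : ValuationSubring Kb) {W : Type} [AddCommGroup W] (act act' : GK → W → W)
    (X : W → W → Kb) : Prop :=
  ∀ σ ∈ P.inertiaSubgroupIn ℚ, ∀ a w : W, X (act' σ a) (act σ w) = σ (X a w)

/-- `(W, act)` has no nontrivial inertia-stable subgroup. -/
def IsSimpleAct (P : ValuationSubring Kb) {W : Type} [AddCommGroup W] (act : GK → W → W) : Prop :=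
  ∀ N : AddSubgroup W, (∀ σ ∈ P.inertiaSubgroupIn ℚ, ∀ n ∈ N, act σ n ∈ N) → N = ⊥ ∨ N = ⊤

/-- Inertia acts on `W` through a commutative group. -/
def IsCommAct (P : ValuationSubring Kb) {W : Type} (act : GK → W → W) : Prop :=
  ∀ σ ∈ P.inertiaSubgroupIn ℚ, ∀ τ ∈ P.inertiaSubgroupIn ℚ, ∀ w : W,
    act σ (act τ w) = act τ (act σ w)

/-- Inertia acts on `W` through the cyclic group generated by `τ₀`. -/
def IsCyclicAct (P : ValuationSubring Kb) {W : Type} (act : GK → W → W) (τ₀ : GK) : Prop :=
  τ₀ ∈ P.inertiaSubgroupIn ℚ ∧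
  ∀ σ ∈ P.inertiaSubgroupIn ℚ, ∃ n : ℕ, ∀ w : W, act σ w = (act τ₀)^[n] w

/-! ### Leaves -/

/-- **BASIS** (D/Basis.lean): an `I`-order has a basis indexed by `W`.
[`O.alg` is a finitely generated torsion-free module over the PID `R'`
(`inertiaRing_isPrincipalIdealRing`), hence free; an `R'`-independent family of equivariant
functions is `ℚ̄`-independent (Galois descent: a relation of minimal support with a coefficient
`1`, apply `σ ∈ I`, subtract; inertia-fixed coefficients have a `p`-power multiple in `R'`: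
`exists_pow_mul_mem_inertiaRing`); `span = ⊤` gives the cardinality.] -/
def BasisProp (p : ℕ) (P : ValuationSubring Kb) : Prop :=
  p.Prime → P.LiesOverPrime p →
  ∀ (W : Type) [AddCommGroup W] [Fintype W] (act : GK → W → W) (O : IOrd P W act),
    IsIAction P act → ∃ b : W → W → Kb, IsOrdBasis O b

/-- **CHAR** (D/Char.lean): the coefficients of a character in a basis of an `I`-order are in `P`.
[Port of Lib/FFL/Char.lean (`char_apply_mem`, `char_mem_spanP`) from `HopfOrder` to `IOrd`:
shift operators `T_u`, FULL from `DvdProp`, `IntProp`.] -/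
def CharProp (p : ℕ) (P : ValuationSubring Kb) : Prop :=
  p.Prime → P.LiesOverPrime p →
  ∀ (W : Type) [AddCommGroup W] [Fintype W] (act : GK → W → W) (O : IOrd P W act)
    (b : W → W → Kb), IsOrdBasis O b → ∀ χ : W → Kb, IsCharFun χ →
    ∀ c : W → Kb, χ = ∑ i, c i • b i → ∀ i, c i ∈ P

/-- **PAIR** (D/Pair.lean): a finite abelian group has a perfect pairing with values in `ℚ̄`.
[Mathlib.GroupTheory.FiniteAbelian.Duality: `CommGroup.monoidHom_mulEquiv_of_hasEnoughRootsOfUnity`,
`CommGroup.exists_apply_ne_one_of_hasEnoughRootsOfUnity` for `G = Multiplicative W`, `M = ℚ̄`.] -/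
def PairProp : Prop :=
  ∀ (W : Type) [AddCommGroup W] [Finite W], ∃ X : W → W → Kb, IsPairing X

/-- **DUALDET** (D/DualDet.lean): the character table has `det ^ 4 = n ^ (2 n)`.
[`X * Xᵀ∘(w ↦ -w) = n • 1` by orthogonality (`∑ w, X a w = 0` for `a ≠ 0`), and
`w ↦ -w` permutes the columns: `det (X ∘ neg) = ± det X`.] -/
def DualDetProp : Prop :=
  ∀ (W : Type) [AddCommGroup W] [Fintype W] [DecidableEq W] (X : W → W → Kb), IsPairing X →
    (Matrix.of X).det ^ 4 = (Fintype.card W : Kb) ^ (2 * Fintype.card W)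

/-- **DUALACT** (D/DualAct.lean): the dual action exists, is an action of inertia, and inherits
commutativity and simplicity.
[`act' σ a` := the `a'` with `X a' = fun w => σ (X a (act σ⁻¹ w))` for `σ ∈ I`, `a` otherwise.
Simplicity: the annihilator `{w | ∀ a ∈ N, X a w = 1}` of an `act'`-stable `N` is `act`-stable;
double annihilator by `CommGroup.subgroupOrderIsoSubgroupMonoidHom` or by counting.] -/
def DualActProp (P : ValuationSubring Kb) : Prop :=
  ∀ (W : Type) [AddCommGroup W] [Finite W] (act : GK → W → W) (X : W → W → Kb),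
    IsIAction P act → IsPairing X →
    ∃ act' : GK → W → W, IsIAction P act' ∧ IsDualAct P act act' X ∧
      (IsCommAct P act → IsCommAct P act') ∧ (IsSimpleAct P act → IsSimpleAct P act')

/-- **DUALFAM** (D/DualFam.lean): the coefficient family `β` of the pairing in a basis of an
`I`-order is equivariant for the dual action, and congruent to its value at `0` modulo `𝔪_P` on
the augmentation subgroup of the dual action.
[Equivariance: apply `σ` to `X a = ∑ β i a • b i`, uniqueness of coefficients.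
Congruence: `β i (a + a') = ∑ c_ijk β j a β k a'` with the structure constants `c_ijk ∈ R'` of the
multiplication of `O.alg`, `β i (-a) = ∑ n_ij β j a` (`O.neg`), `β j a ∈ P` (CHAR, given here as a
hypothesis); so `{a | ∀ i, β i a - β i 0 ∈ 𝔪_P}` is a subgroup, and it contains
`act' σ a - a`: `β i (act' σ a - a) = ∑ c σ(β j a) β k (-a) ≡ ∑ c β j a β k (-a) = β i 0`.] -/
def DualFamProp (p : ℕ) (P : ValuationSubring Kb) : Prop :=
  p.Prime → P.LiesOverPrime p →
  ∀ (W : Type) [AddCommGroup W] [Fintype W] (act act' : GK → W → W) (O : IOrd P W act)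
    (b : W → W → Kb) (X : W → W → Kb) (β : W → W → Kb),
    IsIAction P act → IsIAction P act' → IsOrdBasis O b → IsPairing X → IsDualAct P act act' X →
    (∀ a w, X a w = ∑ i, β i a * b i w) → (∀ i a, β i a ∈ P) →
    (∀ σ ∈ P.inertiaSubgroupIn ℚ, ∀ i a, β i (act' σ a) = σ (β i a)) ∧
    ∀ a ∈ augI P act', ∀ i, β i a - β i 0 ∈ P.nonunits

/-- **RED** (D/Red.lean): the functions of an `I`-order are constant modulo `𝔪_P` on the
augmentation subgroup of inertia.
[Lib/FFL/Red.lean `augI_subset_redKer` for `IOrd`: `f (σ v - v) = ∑ g i (σ v) h i (-v)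
= ∑ σ (g i v) h i (-v) ≡ ∑ g i v h i (-v) = f 0`; the set of such points is a subgroup.] -/
def RedProp (P : ValuationSubring Kb) : Prop :=
  ∀ (W : Type) [AddCommGroup W] (act : GK → W → W) (O : IOrd P W act), IsIAction P act →
    ∀ w ∈ augI P act, ∀ f ∈ O.alg, f w - f 0 ∈ P.nonunits

/-- **SCHUR** (D/Schur.lean): a commutative action of inertia on a finite group without stable
subgroups is through a cyclic group.
[The subring `E` of `AddMonoid.End W` generated by the `act σ` is commutative, and a domain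
(kernels are stable); the `act σ` form a finite subgroup of `Eˣ`:
`isCyclic_of_subgroup_isDomain`.  `W = 0` is trivial.] -/
def SchurProp (P : ValuationSubring Kb) : Prop :=
  ∀ (W : Type) [AddCommGroup W] [Finite W] (act : GK → W → W),
    IsIAction P act → IsCommAct P act → IsSimpleAct P act → ∃ τ₀ : GK, IsCyclicAct P act τ₀

/-- **ORBIT** (D/Orbit.lean): a permutation `γ` of a finite pointed set with `γ ^ d = 1` which is
free outside the base point: the set is `{0} ⊔ (m orbits of length d)`. -/
def OrbitProp : Prop :=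
  ∀ (W : Type) [Fintype W] (o : W) (γ : W → W) (d : ℕ) (hd : 0 < d),
    γ o = o → (∀ w, γ^[d] w = w) → (∀ w, w ≠ o → ∀ s, 0 < s → s < d → γ^[s] w ≠ w) →
    ∃ (m : ℕ) (ε : Unit ⊕ Fin m × Fin d ≃ W), ε (Sum.inl ()) = o ∧
      ∀ (j : Fin m) (s : Fin d), ε (Sum.inr (j, s)) = γ^[(s : ℕ)] (ε (Sum.inr (j, ⟨0, hd⟩)))

end Fermat.Agent.S56.SS
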