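/-
S56 W4 case C, block D (helper26): elementary facts on inertia actions (`IsIAction`).
-/
import Fermat.Agent.S56.W4.C.D.Defs

set_option autoImplicit false

namespace Fermat.Agent.S56.SS

open Fermat.Agent.FFL

local notation "Kb" => AlgebraicClosure ℚ
local notation "GK" => (AlgebraicClosure ℚ ≃ₐ[ℚ] AlgebraicClosure ℚ)

variable {P : ValuationSubring Kb} {W : Type} [AddCommGroup W] {act : GK → W → W}

theorem iact_zero (hact : IsIAction P act) {σ : GK} (hσ : σ ∈ P.inertiaSubgroupIn ℚ) :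
    act σ 0 = 0 := by
  have h := hact.1 σ hσ 0 0
  rw [add_zero] at h
  exact left_eq_add.1 h

theorem iact_neg (hact : IsIAction P act) {σ : GK} (hσ : σ ∈ P.inertiaSubgroupIn ℚ) (w : W) :
    act σ (-w) = -act σ w := by
  have h := hact.1 σ hσ w (-w)
  rw [add_neg_cancel, iact_zero hact hσ] at h
  exact (neg_eq_of_add_eq_zero_right h.symm).symm

theorem iact_sub (hact : IsIAction P act) {σ : GK} (hσ : σ ∈ P.inertiaSubgroupIn ℚ) (w w' : W) :
    act σ (w - w') = act σ w - act σ w' := by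
  rw [sub_eq_add_neg, hact.1 σ hσ, iact_neg hact hσ, sub_eq_add_neg]

theorem iact_nsmul (hact : IsIAction P act) {σ : GK} (hσ : σ ∈ P.inertiaSubgroupIn ℚ) (n : ℕ)
    (w : W) : act σ (n • w) = n • act σ w := by
  induction n with
  | zero => rw [zero_smul, zero_smul, iact_zero hact hσ]
  | succ n ih => rw [succ_nsmul, succ_nsmul, hact.1 σ hσ, ih]

theorem iact_inv_cancel (hact : IsIAction P act) {σ : GK} (hσ : σ ∈ P.inertiaSubgroupIn ℚ)
    (w : W) : act σ⁻¹ (act σ w) = w := by
  rw [← hact.2.2 σ⁻¹ (inv_mem hσ) σ hσ, inv_mul_cancel, hact.2.1]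

theorem iact_cancel_inv (hact : IsIAction P act) {σ : GK} (hσ : σ ∈ P.inertiaSubgroupIn ℚ)
    (w : W) : act σ (act σ⁻¹ w) = w := by
  rw [← hact.2.2 σ hσ σ⁻¹ (inv_mem hσ), mul_inv_cancel, hact.2.1]

theorem iact_injective (hact : IsIAction P act) {σ : GK} (hσ : σ ∈ P.inertiaSubgroupIn ℚ) :
    Function.Injective (act σ) := fun w w' h => by
  rw [← iact_inv_cancel hact hσ w, h, iact_inv_cancel hact hσ]

theorem iact_pow (hact : IsIAction P act) {τ : GK} (hτ : τ ∈ P.inertiaSubgroupIn ℚ) (s : ℕ)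
    (w : W) : act (τ ^ s) w = (act τ)^[s] w := by
  induction s generalizing w with
  | zero => rw [pow_zero, hact.2.1, Function.iterate_zero, id]
  | succ s ih =>
    rw [pow_succ, hact.2.2 _ (pow_mem hτ s) τ hτ, ih, Function.iterate_succ_apply]

/-- The permutation of `W` given by an inertia element. -/
noncomputable def iactPerm (hact : IsIAction P act) {σ : GK} (hσ : σ ∈ P.inertiaSubgroupIn ℚ) :
    Equiv.Perm W where
  toFun := act σ
  invFun := act σ⁻¹
  left_inv := iact_inv_cancel hact hσ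
  right_inv := iact_cancel_inv hact hσ

theorem iactPerm_pow (hact : IsIAction P act) {σ : GK} (hσ : σ ∈ P.inertiaSubgroupIn ℚ) (s : ℕ)
    (w : W) : (iactPerm hact hσ ^ s) w = (act σ)^[s] w := by
  rw [← Equiv.Perm.iterate_eq_pow]
  rfl

omit [AddCommGroup W] in
/-- Iterates of `act τ₀` commute with the action of inertia. -/
theorem iact_iterate_comm (hcomm : IsCommAct P act) {σ τ : GK}
    (hσ : σ ∈ P.inertiaSubgroupIn ℚ) (hτ : τ ∈ P.inertiaSubgroupIn ℚ) (s : ℕ) (w : W) :
    (act τ)^[s] (act σ w) = act σ ((act τ)^[s] w) := by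
  induction s generalizing w with
  | zero => rfl
  | succ s ih =>
    rw [Function.iterate_succ_apply, Function.iterate_succ_apply, hcomm τ hτ σ hσ, ih]

theorem iact_iterate_add (hact : IsIAction P act) {τ : GK} (hτ : τ ∈ P.inertiaSubgroupIn ℚ)
    (s : ℕ) (w w' : W) : (act τ)^[s] (w + w') = (act τ)^[s] w + (act τ)^[s] w' := by
  rw [← iact_pow hact hτ, ← iact_pow hact hτ, ← iact_pow hact hτ]
  exact hact.1 _ (pow_mem hτ s) w w'

omit [AddCommGroup W] in
/-- A cyclic action is commutative. -/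
theorem isCommAct_of_cyclic {τ₀ : GK} (h : IsCyclicAct P act τ₀) : IsCommAct P act := by
  intro σ hσ τ hτ w
  obtain ⟨n, hn⟩ := h.2 σ hσ
  obtain ⟨n', hn'⟩ := h.2 τ hτ
  rw [hn, hn', hn', hn, ← Function.iterate_add_apply, ← Function.iterate_add_apply, add_comm]

end Fermat.Agent.S56.SS
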