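/-
S56 W4 case C, block D (helper26): **the discriminant estimate on `W`** (one side).

A family `b : W → W → ℚ̄` (rows `b i`) of `P`-valued, inertia-equivariant functions on `W`, constant
modulo `𝔪_P`, for a simple commutative action of inertia on `W` (`p ∣ |W|`): inertia acts through
a cyclic group of order `d` (SCHUR), freely on `W \ 0` (`m` orbits, ORBIT), and
`v(det (b i w)) ≥ m (d + 1) / 2` (`disc_main`); in the case of equality with `m = 1` inertia is
transitive on `W \ 0` and some `b i - b i 0` has valuation `1 / d` on `W \ 0`.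
-/
import Fermat.Agent.S56.W4.C.D.Act
import Fermat.Agent.Lib.FFL.FB.Disc

set_option autoImplicit false

namespace Fermat.Agent.S56.SS

open Fermat.Agent.FFL

local notation "Kb" => AlgebraicClosure ℚ
local notation "GK" => (AlgebraicClosure ℚ ≃ₐ[ℚ] AlgebraicClosure ℚ)

variable {p : ℕ} {P : ValuationSubring Kb} {W : Type} [AddCommGroup W] {act : GK → W → W}

/-- The column operation matrix: subtract the first column from the others. -/
noncomputable def colOp (J : Type) [DecidableEq J] : Matrix (Unit ⊕ J) (Unit ⊕ J) Kb :=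
  Matrix.fromBlocks (1 : Matrix Unit Unit Kb) (Matrix.of fun _ _ => (-1 : Kb))
    (0 : Matrix J Unit Kb) (1 : Matrix J J Kb)

theorem colOp_det (J : Type) [Fintype J] [DecidableEq J] : (colOp J).det = 1 := by
  unfold colOp
  rw [Matrix.det_fromBlocks_zero₂₁, Matrix.det_one, Matrix.det_one, one_mul]

theorem mul_colOp_inl {J : Type} [Fintype J] [DecidableEq J]
    (A : Matrix (Unit ⊕ J) (Unit ⊕ J) Kb) (i : Unit ⊕ J) :
    (A * colOp J) i (Sum.inl ()) = A i (Sum.inl ()) := by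
  rw [Matrix.mul_apply, Fintype.sum_sum_type]
  simp only [colOp, Matrix.fromBlocks_apply₁₁, Matrix.fromBlocks_apply₂₁, Finset.univ_unique,
    Finset.sum_singleton, Matrix.one_apply_eq, mul_one, Matrix.zero_apply, mul_zero,
    Finset.sum_const_zero, add_zero]

theorem mul_colOp_inr {J : Type} [Fintype J] [DecidableEq J]
    (A : Matrix (Unit ⊕ J) (Unit ⊕ J) Kb) (i : Unit ⊕ J) (c : J) :
    (A * colOp J) i (Sum.inr c) = A i (Sum.inr c) - A i (Sum.inl ()) := by
  rw [Matrix.mul_apply, Fintype.sum_sum_type]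
  simp only [colOp, Matrix.fromBlocks_apply₁₂, Matrix.fromBlocks_apply₂₂, Finset.univ_unique,
    Finset.sum_singleton, Matrix.of_apply, mul_neg, mul_one, Matrix.one_apply, mul_ite, mul_zero,
    Finset.sum_ite_eq', Finset.mem_univ, if_true]
  have : A i (Sum.inl (default : Unit)) = A i (Sum.inl ()) := rfl
  rw [this]
  ring

/-- The set of fixed points of an iterate of `act τ` is an inertia-stable subgroup. -/
def fixSub (hact : IsIAction P act) {τ : GK} (hτ : τ ∈ P.inertiaSubgroupIn ℚ) (s : ℕ) :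
    AddSubgroup W where
  carrier := {w | (act τ)^[s] w = w}
  add_mem' := fun {a b} ha hb => by
    show (act τ)^[s] (a + b) = a + b
    rw [iact_iterate_add hact hτ, ha, hb]
  zero_mem' := by
    show (act τ)^[s] 0 = 0
    rw [← iact_pow hact hτ, iact_zero hact (pow_mem hτ s)]
  neg_mem' := fun {a} ha => by
    show (act τ)^[s] (-a) = -a
    rw [← iact_pow hact hτ, iact_neg hact (pow_mem hτ s), iact_pow hact hτ, ha]

theorem mem_fixSub (hact : IsIAction P act) {τ : GK} (hτ : τ ∈ P.inertiaSubgroupIn ℚ) (s : ℕ)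
    (w : W) : w ∈ fixSub hact hτ s ↔ (act τ)^[s] w = w := Iff.rfl

/-- A simple commutative action is free outside `0`: an iterate of `act τ` with a nonzero fixed
point is the identity. -/
theorem iterate_eq_of_fixed (hact : IsIAction P act) (hcomm : IsCommAct P act)
    (hsimple : IsSimpleAct P act) {τ : GK} (hτ : τ ∈ P.inertiaSubgroupIn ℚ) (s : ℕ) {w : W}
    (hw : w ≠ 0) (hfix : (act τ)^[s] w = w) (v : W) : (act τ)^[s] v = v := by
  have hstab : ∀ σ ∈ P.inertiaSubgroupIn ℚ, ∀ n ∈ fixSub hact hτ s, act σ n ∈ fixSub hact hτ s := by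
    intro σ hσ n hn
    rw [mem_fixSub] at hn ⊢
    rw [iact_iterate_comm hcomm hσ hτ, hn]
  rcases hsimple _ hstab with h | h
  · exfalso
    apply hw
    have : w ∈ fixSub hact hτ s := hfix
    rw [h] at this
    exact (AddSubgroup.mem_bot).1 this
  · have : v ∈ fixSub hact hτ s := by
      rw [h]
      exact AddSubgroup.mem_top v
    exact this

/-- **The discriminant estimate on `W`.** -/
theorem discW (hp : p.Prime) (hP : P.LiesOverPrime p) (hSchur : SchurProp P) (hOrb : OrbitProp)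
    [Fintype W] [DecidableEq W] (hact : IsIAction P act) (hcomm : IsCommAct P act)
    (hsimple : IsSimpleAct P act) (hpn : p ∣ Fintype.card W)
    (b : W → W → Kb) (hbP : ∀ i w, b i w ∈ P)
    (hbeq : ∀ σ ∈ P.inertiaSubgroupIn ℚ, ∀ i w, b i (act σ w) = σ (b i w))
    (hbconn : ∀ i w, b i w - b i 0 ∈ P.nonunits) :
    ∃ m d : ℕ, 0 < d ∧ Fintype.card W = 1 + m * d ∧
      (Matrix.of b).det ^ 2 / (p : Kb) ^ (m * (d + 1)) ∈ P ∧
      ((Matrix.of b).det ^ 2 / (p : Kb) ^ (m * (d + 1)) ∉ P.nonunits → m = 1 →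
        (∀ a a' : W, a ≠ 0 → a' ≠ 0 → ∃ σ ∈ P.inertiaSubgroupIn ℚ, act σ a = a') ∧
        ∃ i, ∀ a : W, a ≠ 0 → IsPUnit P ((b i a - b i 0) ^ d / (p : Kb))) := by
  classical
  obtain ⟨τ₀, hτ₀, hcyc⟩ := hSchur W act hact hcomm hsimple
  set γ : Equiv.Perm W := iactPerm hact hτ₀ with hγ
  set d : ℕ := orderOf γ with hd
  have hdpos : 0 < d := orderOf_pos γ
  have hγd : ∀ w, (act τ₀)^[d] w = w := by
    intro w
    rw [← iactPerm_pow hact hτ₀, pow_orderOf_eq_one]
    rfl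
  have hfree : ∀ w, w ≠ 0 → ∀ s, 0 < s → s < d → (act τ₀)^[s] w ≠ w := by
    intro w hw s hs hsd hfix
    have hall := iterate_eq_of_fixed hact hcomm hsimple hτ₀ s hw hfix
    have h1 : γ ^ s = 1 := by
      ext v
      rw [iactPerm_pow]
      exact hall v
    exact absurd (Nat.le_of_dvd hs (orderOf_dvd_of_pow_eq_one h1)) (not_le.2 hsd)
  obtain ⟨m, ε, hε0, hεs⟩ := hOrb W 0 (act τ₀) d hdpos (iact_zero hact hτ₀) hγd hfree
  have hcard : Fintype.card W = 1 + m * d := by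
    rw [← Fintype.card_congr ε]
    simp
  have hpd : ¬ p ∣ d := by
    intro h
    have h1 : p ∣ m * d := Dvd.dvd.mul_left h m
    rw [hcard] at hpn
    have h2 : p ∣ 1 := (Nat.dvd_add_left h1).1 hpn
    exact hp.one_lt.ne' (Nat.dvd_one.1 h2)
  have hit0 : ∀ t : ℕ, (act τ₀)^[t] (0 : W) = 0 := fun t => by
    rw [← iact_pow hact hτ₀, iact_zero hact (pow_mem hτ₀ t)]
  -- the data of `disc_main`
  let a₀ : Fin m → W := fun j => ε (Sum.inr (j, ⟨0, hdpos⟩))
  let c₀ : DIdx Unit (Fin m) d → Unit → Kb := fun i _ => b (ε i) 0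
  let x : DIdx Unit (Fin m) d → Fin m → Kb := fun i j => b (ε i) (a₀ j) - b (ε i) 0
  have hpowx : ∀ i j (t : ℕ),
      (τ₀ ^ t) (x i j) = b (ε i) ((act τ₀)^[t] (a₀ j)) - b (ε i) 0 := by
    intro i j t
    show (τ₀ ^ t) (b (ε i) (a₀ j) - b (ε i) 0) = _
    rw [map_sub, ← hbeq _ (pow_mem hτ₀ t), ← hbeq _ (pow_mem hτ₀ t), iact_pow hact hτ₀,
      iact_pow hact hτ₀, hit0]
  have hMeq : discMat τ₀ c₀ x = ((Matrix.of b).submatrix ε ε) * colOp (Fin m × Fin d) := by
    ext i c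
    rcases c with u | ⟨j, s⟩
    · rw [mul_colOp_inl]
      show b (ε i) 0 = b (ε i) (ε (Sum.inl ()))
      rw [hε0]
    · rw [mul_colOp_inr, discMat_inr, hpowx]
      show _ = b (ε i) (ε (Sum.inr (j, s))) - b (ε i) (ε (Sum.inl ()))
      rw [hεs j s, hε0]
  have hdet : (discMat τ₀ c₀ x).det = (Matrix.of b).det := by
    rw [hMeq, Matrix.det_mul, colOp_det, mul_one, Matrix.det_submatrix_equiv_self]
  have hI : ∀ σ ∈ P.inertiaSubgroupIn ℚ, ∃ s : ℕ, ∀ i j (t : ℕ),
      σ ((τ₀ ^ t) (x i j)) = (τ₀ ^ (s + t)) (x i j) := by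
    intro σ hσ
    obtain ⟨n, hn⟩ := hcyc σ hσ
    refine ⟨n, fun i j t => ?_⟩
    rw [hpowx, hpowx, map_sub, ← hbeq σ hσ, ← hbeq σ hσ, hn, hn, hit0,
      ← Function.iterate_add_apply]
  have hgd : ∀ i j, (τ₀ ^ d) (x i j) = x i j := by
    intro i j
    rw [hpowx, hγd]
  obtain ⟨h1, h2⟩ := disc_main hp hP hdpos.ne' hpd hτ₀ c₀ x (fun i _ => hbP _ _)
    (fun i j => hbconn _ _) hI hgd
  rw [hdet, Fintype.card_fin] at h1 h2
  refine ⟨m, d, hdpos, hcard, h1, fun hunit hm1 => ?_⟩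
  have h3 := h2 hunit
  subst hm1
  have hrep : ∀ w : W, w ≠ 0 → ∃ s : ℕ, w = act (τ₀ ^ s) (a₀ 0) := by
    intro w hw
    obtain ⟨c, rfl⟩ := ε.surjective w
    rcases c with u | ⟨j, s⟩
    · exact absurd hε0 hw
    · refine ⟨s, ?_⟩
      rw [iact_pow hact hτ₀, hεs j s]
      have hj : j = 0 := Subsingleton.elim _ _
      rw [hj]
  refine ⟨fun a a' ha ha' => ?_, ?_⟩
  · obtain ⟨s, rfl⟩ := hrep a ha
    obtain ⟨s', rfl⟩ := hrep a' ha'
    refine ⟨τ₀ ^ s' * (τ₀ ^ s)⁻¹, mul_mem (pow_mem hτ₀ s') (inv_mem (pow_mem hτ₀ s)), ?_⟩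
    rw [hact.2.2 _ (pow_mem hτ₀ s') _ (inv_mem (pow_mem hτ₀ s)),
      iact_inv_cancel hact (pow_mem hτ₀ s)]
  · obtain ⟨i, hi⟩ := h3 0
    refine ⟨ε i, fun a ha => ?_⟩
    obtain ⟨s, rfl⟩ := hrep a ha
    have h4 : b (ε i) (act (τ₀ ^ s) (a₀ 0)) - b (ε i) 0 = (τ₀ ^ s) (x i 0) := by
      rw [hpowx, iact_pow hact hτ₀]
    rw [h4]
    have h5 : ((τ₀ ^ s) (x i 0)) ^ d / (p : Kb) = (τ₀ ^ s) ((x i 0) ^ d / (p : Kb)) := by
      rw [map_div₀, map_pow, map_natCast]
    rw [h5]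
    exact disc_inertia_isPUnit (pow_mem hτ₀ s) hi

end Fermat.Agent.S56.SS
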