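/-
S56 W4 case C, block D (helper26): **assembly, core**.  For an `I`-order `O` on `W` (`p ∣ |W|`)
with a simple commutative action of inertia which is nontrivial on `W` and on the characters of
`W`: bases `b` (of `O`) and `β` (coefficients of the characters), with
`(α α') ^ 2 * p ^ (2 (m (d + 1) + m' (d' + 1))) = n ^ (2 n)`, `α, α' ∈ P`,
`n = 1 + m d = 1 + m' d'`, and the equality statement of `discW` for `b`.
-/
import Fermat.Agent.S56.W4.C.D.DiscW

set_option autoImplicit false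

namespace Fermat.Agent.S56.SS

open Fermat.Agent.FFL

local notation "Kb" => AlgebraicClosure ℚ
local notation "GK" => (AlgebraicClosure ℚ ≃ₐ[ℚ] AlgebraicClosure ℚ)

variable {p : ℕ} {P : ValuationSubring Kb} {W : Type} [AddCommGroup W] {act : GK → W → W}

/-- For a simple commutative nontrivial action, the augmentation subgroup is everything. -/
theorem augI_eq_top (hact : IsIAction P act) (hcomm : IsCommAct P act)
    (hsimple : IsSimpleAct P act)
    (hnt : ∃ σ ∈ P.inertiaSubgroupIn ℚ, ∃ w, act σ w ≠ w) (w : W) : w ∈ augI P act := by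
  have hstab : ∀ τ ∈ P.inertiaSubgroupIn ℚ, ∀ n ∈ augI P act, act τ n ∈ augI P act := by
    intro τ hτ n hn
    unfold augI augOn at hn ⊢
    induction hn using AddSubgroup.closure_induction with
    | mem x hx =>
      obtain ⟨σ, hσ, v, -, rfl⟩ := hx
      apply AddSubgroup.subset_closure
      refine ⟨σ, hσ, act τ v, Set.mem_univ _, ?_⟩
      rw [iact_sub hact hτ, hcomm τ hτ σ hσ]
    | zero =>
      rw [iact_zero hact hτ]
      exact AddSubgroup.zero_mem _
    | add x y _ _ hx hy =>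
      rw [hact.1 τ hτ]
      exact AddSubgroup.add_mem _ hx hy
    | neg x _ hx =>
      rw [iact_neg hact hτ]
      exact AddSubgroup.neg_mem _ hx
  rcases hsimple _ hstab with h | h
  · exfalso
    obtain ⟨σ, hσ, v, hv⟩ := hnt
    have h1 : act σ v - v ∈ augI P act :=
      AddSubgroup.subset_closure ⟨σ, hσ, v, Set.mem_univ _, rfl⟩
    rw [h, AddSubgroup.mem_bot, sub_eq_zero] at h1
    exact hv h1
  · rw [h]
    exact AddSubgroup.mem_top w

/-- **Core of block D.** -/
theorem dcore (hp : p.Prime) (hP : P.LiesOverPrime p)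
    (hBasis : BasisProp p P) (hChar : CharProp p P) (hPair : PairProp) (hDet : DualDetProp)
    (hAct : DualActProp P) (hFam : DualFamProp p P) (hRed : RedProp P) (hSchur : SchurProp P)
    (hOrb : OrbitProp) [Fintype W] [DecidableEq W] (O : IOrd P W act)
    (hact : IsIAction P act) (hcomm : IsCommAct P act) (hsimple : IsSimpleAct P act)
    (hnt : ∃ σ ∈ P.inertiaSubgroupIn ℚ, ∃ w, act σ w ≠ w)
    (hnt' : ∃ σ ∈ P.inertiaSubgroupIn ℚ, ∃ χ : W → Kb, IsCharFun χ ∧
      ∃ w, χ (act σ w) ≠ σ (χ w))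
    (hpn : p ∣ Fintype.card W) :
    ∃ (b : W → W → Kb) (m m' d d' : ℕ) (α α' : Kb), IsOrdBasis O b ∧ 0 < d ∧ 0 < d' ∧
      Fintype.card W = 1 + m * d ∧ Fintype.card W = 1 + m' * d' ∧ α ∈ P ∧ α' ∈ P ∧
      (α * α') ^ 2 * (p : Kb) ^ (2 * (m * (d + 1) + m' * (d' + 1))) =
        (Fintype.card W : Kb) ^ (2 * Fintype.card W) ∧
      (α ∉ P.nonunits → m = 1 →
        (∀ a a' : W, a ≠ 0 → a' ≠ 0 → ∃ σ ∈ P.inertiaSubgroupIn ℚ, act σ a = a') ∧
        ∃ i, ∀ a : W, a ≠ 0 → IsPUnit P ((b i a - b i 0) ^ d / (p : Kb))) := by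
  classical
  have hp0 : (p : Kb) ≠ 0 := Nat.cast_ne_zero.2 hp.ne_zero
  have : Finite W := Finite.of_fintype W
  -- the order side
  obtain ⟨b, hb⟩ := hBasis hp hP W act O hact
  have haug := augI_eq_top hact hcomm hsimple hnt
  have hbconn : ∀ i w, b i w - b i 0 ∈ P.nonunits := fun i w =>
    hRed W act O hact w (haug w) (b i) (hb.1 i)
  obtain ⟨m, d, hd, hcard, h1, h2⟩ := discW hp hP hSchur hOrb hact hcomm hsimple hpn b
    (fun i w => O.int _ (hb.1 i) w) (fun σ hσ i w => O.equiv _ (hb.1 i) σ hσ w) hbconn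
  -- the dual side
  obtain ⟨X, hX⟩ := hPair W
  obtain ⟨act', hact', hdual, hcomm', hsimple'⟩ := hAct W act X hact hX
  have hcard' : Fintype.card W = Module.finrank Kb (W → Kb) := by
    rw [Module.finrank_fintype_fun_eq_card]
  let B : Module.Basis W Kb (W → Kb) := basisOfLinearIndependentOfCardEqFinrank hb.2.1 hcard'
  have hB : ∀ i, B i = b i := fun i => by
    simp only [B, coe_basisOfLinearIndependentOfCardEqFinrank]
  let β : W → W → Kb := fun i a => B.repr (X a) i
  have hXβ : ∀ a, X a = ∑ i, β i a • b i := by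
    intro a
    have := (B.sum_repr (X a)).symm
    simp only [hB] at this
    exact this
  have hXβ' : ∀ a w, X a w = ∑ i, β i a * b i w := by
    intro a w
    have := congrFun (hXβ a) w
    rw [this, Finset.sum_apply]
    rfl
  have hβP : ∀ i a, β i a ∈ P := fun i a =>
    hChar hp hP W act O b hb (X a) (hX.1 a) (fun i => β i a) (hXβ a) i
  obtain ⟨hβeq, hβconn⟩ := hFam hp hP W act act' O b X β hact hact' hb hX hdual hXβ' hβP
  have hnt'' : ∃ σ ∈ P.inertiaSubgroupIn ℚ, ∃ a, act' σ a ≠ a := by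
    obtain ⟨σ, hσ, χ, hχ, w, hw⟩ := hnt'
    obtain ⟨a, rfl⟩ := hX.2.2.2.2 χ hχ
    refine ⟨σ, hσ, a, fun h => hw ?_⟩
    rw [← hdual σ hσ a w, h]
  have haug' := augI_eq_top hact' (hcomm' hcomm) (hsimple' hsimple) hnt''
  obtain ⟨m', d', hd', hcard2, h1', -⟩ := discW hp hP hSchur hOrb hact' (hcomm' hcomm)
    (hsimple' hsimple) hpn β hβP (fun σ hσ i a => hβeq σ hσ i a)
    (fun i a => hβconn a (haug' a) i)
  -- the determinant relation
  have hmat : Matrix.of X = (Matrix.of β).transpose * Matrix.of b := by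
    ext a w
    rw [Matrix.mul_apply]
    exact hXβ' a w
  have hdet : (Matrix.of X).det = (Matrix.of β).det * (Matrix.of b).det := by
    rw [hmat, Matrix.det_mul, Matrix.det_transpose]
  have hdet4 := hDet W X hX
  refine ⟨b, m, m', d, d', _, _, hb, hd, hd', hcard, hcard2, h1, h1', ?_, h2⟩
  rw [← hdet4, hdet]
  have e1 : (p : Kb) ^ (m * (d + 1)) ≠ 0 := pow_ne_zero _ hp0
  have e2 : (p : Kb) ^ (m' * (d' + 1)) ≠ 0 := pow_ne_zero _ hp0
  have hpow : (p : Kb) ^ (2 * (m * (d + 1) + m' * (d' + 1))) =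
      ((p : Kb) ^ (m * (d + 1)) * (p : Kb) ^ (m' * (d' + 1))) ^ 2 := by
    rw [← pow_add, ← pow_mul, mul_comm]
  rw [hpow]
  generalize (p : Kb) ^ (m * (d + 1)) = u at e1 ⊢
  generalize (p : Kb) ^ (m' * (d' + 1)) = u' at e2 ⊢
  field_simp

end Fermat.Agent.S56.SS
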