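/-
S56 / W4 / case C / block D, helper file of the leaves PAIR, DUALDET, DUALACT (helper50):
elementary API for `IsCharFun` and `IsPairing` (D/Defs.lean).
-/
import Fermat.Agent.S56.W4.C.D.Defs

set_option autoImplicit false

namespace Fermat.Agent.S56.SS

open Fermat.Agent.FFL

local notation "Kb" => AlgebraicClosure ℚ
local notation "GK" => (AlgebraicClosure ℚ ≃ₐ[ℚ] AlgebraicClosure ℚ)

section CharFun

variable {W : Type} [AddCommGroup W]

theorem IsCharFun.map_zero {χ : W → Kb} (h : IsCharFun χ) : χ 0 = 1 := h.1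

theorem IsCharFun.map_add {χ : W → Kb} (h : IsCharFun χ) (w w' : W) :
    χ (w + w') = χ w * χ w' := h.2 w w'

theorem IsCharFun.mul_neg {χ : W → Kb} (h : IsCharFun χ) (w : W) : χ w * χ (-w) = 1 := by
  rw [← h.2, add_neg_cancel, h.1]

theorem IsCharFun.ne_zero {χ : W → Kb} (h : IsCharFun χ) (w : W) : χ w ≠ 0 := by
  intro h0
  have := h.mul_neg w
  rw [h0, zero_mul] at this
  exact zero_ne_one this

theorem IsCharFun.map_neg {χ : W → Kb} (h : IsCharFun χ) (w : W) : χ (-w) = (χ w)⁻¹ :=
  eq_inv_of_mul_eq_one_right (h.mul_neg w)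

theorem IsCharFun.map_sub {χ : W → Kb} (h : IsCharFun χ) (w w' : W) :
    χ (w - w') = χ w / χ w' := by
  rw [sub_eq_add_neg, h.2, h.map_neg, div_eq_mul_inv]

theorem IsCharFun.map_nsmul {χ : W → Kb} (h : IsCharFun χ) (k : ℕ) (w : W) :
    χ (k • w) = χ w ^ k := by
  induction k with
  | zero => simp [h.1]
  | succ k ih => rw [succ_nsmul, h.2, ih, pow_succ]

theorem IsCharFun.pow_card {χ : W → Kb} (h : IsCharFun χ) [Finite W] (w : W) :
    χ w ^ Nat.card W = 1 := by
  rw [← h.map_nsmul, card_nsmul_eq_zero', h.1]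

theorem IsCharFun.one : IsCharFun (fun _ : W => (1 : Kb)) := ⟨rfl, fun _ _ => by simp⟩

theorem IsCharFun.mul {χ ψ : W → Kb} (h : IsCharFun χ) (h' : IsCharFun ψ) :
    IsCharFun (fun w => χ w * ψ w) :=
  ⟨by simp [h.1, h'.1], fun w w' => by simp only [h.2, h'.2]; ring⟩

theorem IsCharFun.inv {χ : W → Kb} (h : IsCharFun χ) : IsCharFun (fun w => (χ w)⁻¹) :=
  ⟨by simp [h.1], fun w w' => by simp only [h.2, mul_inv]⟩

/-- A character composed with an additive map is a character. -/
theorem IsCharFun.comp {W' : Type} [AddCommGroup W'] {χ : W → Kb} (h : IsCharFun χ)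
    (φ : W' → W) (h0 : φ 0 = 0) (hadd : ∀ w w', φ (w + w') = φ w + φ w') :
    IsCharFun (fun w => χ (φ w)) :=
  ⟨by simp [h0, h.1], fun w w' => by simp only [hadd, h.2]⟩

/-- A field automorphism applied to a character is a character. -/
theorem IsCharFun.gal {χ : W → Kb} (h : IsCharFun χ) (σ : GK) : IsCharFun (fun w => σ (χ w)) :=
  ⟨by simp [h.1], fun w w' => by simp only [h.2, map_mul]⟩

/-- The monoid homomorphism `Multiplicative W →* ℚ̄ˣ` of a character. -/
noncomputable def IsCharFun.toHom {χ : W → Kb} (h : IsCharFun χ) : Multiplicative W →* Kbˣ where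
  toFun w := Units.mk0 (χ w.toAdd) (h.ne_zero _)
  map_one' := by
    apply Units.ext
    simp [h.1]
  map_mul' a b := by
    apply Units.ext
    simp [h.2]

@[simp] theorem IsCharFun.toHom_apply {χ : W → Kb} (h : IsCharFun χ) (w : Multiplicative W) :
    ((h.toHom w : Kbˣ) : Kb) = χ w.toAdd := rfl

/-- The character of a monoid homomorphism `Multiplicative W →* ℚ̄ˣ`. -/
theorem isCharFun_of_hom (φ : Multiplicative W →* Kbˣ) :
    IsCharFun (fun w : W => ((φ (Multiplicative.ofAdd w) : Kbˣ) : Kb)) :=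
  ⟨by simp, fun w w' => by simp [ofAdd_add]⟩

end CharFun

section Pairing

variable {W : Type} [AddCommGroup W] {X : W → W → Kb}

theorem IsPairing.char (h : IsPairing X) (a : W) : IsCharFun (X a) := h.1 a

theorem IsPairing.add_left (h : IsPairing X) (a a' w : W) : X (a + a') w = X a w * X a' w :=
  h.2.1 a a' w

theorem IsPairing.add_right (h : IsPairing X) (a w w' : W) : X a (w + w') = X a w * X a w' :=
  (h.1 a).2 w w'

theorem IsPairing.zero_right (h : IsPairing X) (a : W) : X a 0 = 1 := (h.1 a).1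

theorem IsPairing.ne_zero (h : IsPairing X) (a w : W) : X a w ≠ 0 := (h.1 a).ne_zero w

theorem IsPairing.zero_left (h : IsPairing X) (w : W) : X 0 w = 1 := by
  have h1 := h.add_left 0 0 w
  rw [add_zero] at h1
  have h2 : X 0 w * 1 = X 0 w * X 0 w := by rw [mul_one]; exact h1
  exact (mul_left_cancel₀ (h.ne_zero 0 w) h2).symm

/-- The pairing is a character in the first variable too. -/
theorem IsPairing.char_left (h : IsPairing X) (w : W) : IsCharFun (fun a => X a w) :=
  ⟨h.zero_left w, fun a a' => h.add_left a a' w⟩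

theorem IsPairing.neg_left (h : IsPairing X) (a w : W) : X (-a) w = (X a w)⁻¹ :=
  (h.char_left w).map_neg a

theorem IsPairing.neg_right (h : IsPairing X) (a w : W) : X a (-w) = (X a w)⁻¹ :=
  (h.char a).map_neg w

theorem IsPairing.sub_left (h : IsPairing X) (a a' w : W) : X (a - a') w = X a w / X a' w :=
  (h.char_left w).map_sub a a'

theorem IsPairing.eq_zero_left (h : IsPairing X) {a : W} (ha : ∀ w, X a w = 1) : a = 0 :=
  h.2.2.1 a ha

theorem IsPairing.eq_zero_right (h : IsPairing X) {w : W} (hw : ∀ a, X a w = 1) : w = 0 :=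
  h.2.2.2.1 w hw

theorem IsPairing.surj (h : IsPairing X) {χ : W → Kb} (hχ : IsCharFun χ) : ∃ a, χ = X a :=
  h.2.2.2.2 χ hχ

theorem IsPairing.injective (h : IsPairing X) : Function.Injective X := by
  intro a a' haa
  have : a - a' = 0 := by
    refine h.eq_zero_left (fun w => ?_)
    rw [h.sub_left, haa, div_self (h.ne_zero a' w)]
  exact sub_eq_zero.1 this

theorem IsPairing.injective_right (h : IsPairing X) {w w' : W} (hw : ∀ a, X a w = X a w') :
    w = w' := by
  have : w - w' = 0 := by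
    refine h.eq_zero_right (fun a => ?_)
    rw [(h.char a).map_sub, hw, div_self (h.ne_zero a w')]
  exact sub_eq_zero.1 this

theorem IsPairing.pow_card (h : IsPairing X) [Finite W] (a w : W) : X a w ^ Nat.card W = 1 :=
  (h.char a).pow_card w

/-- The transposed pairing. -/
theorem IsPairing.exists_ne_one_right (h : IsPairing X) {w : W} (hw : w ≠ 0) :
    ∃ a, X a w ≠ 1 := by
  by_contra hcon
  exact hw (h.eq_zero_right (fun a => by_contra (fun ha => hcon ⟨a, ha⟩)))

theorem IsPairing.exists_ne_one_left (h : IsPairing X) {a : W} (ha : a ≠ 0) :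
    ∃ w, X a w ≠ 1 := by
  by_contra hcon
  exact ha (h.eq_zero_left (fun w => by_contra (fun hw => hcon ⟨w, hw⟩)))

/-- Orthogonality: the sum of a nontrivial character is `0`. -/
theorem IsCharFun.sum_eq_zero [Fintype W] {χ : W → Kb} (h : IsCharFun χ) {w₀ : W}
    (hw₀ : χ w₀ ≠ 1) : ∑ w, χ w = 0 := by
  have h1 : χ w₀ * ∑ w, χ w = ∑ w, χ w := by
    rw [Finset.mul_sum]
    have : ∑ w, χ w₀ * χ w = ∑ w, χ (w₀ + w) :=
      Finset.sum_congr rfl (fun w _ => (h.2 w₀ w).symm)
    rw [this]
    exact Fintype.sum_equiv (Equiv.addLeft w₀) _ _ (fun w => rfl)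
  have h2 : (χ w₀ - 1) * ∑ w, χ w = 0 := by rw [sub_mul, h1, one_mul, sub_self]
  rcases mul_eq_zero.1 h2 with h3 | h3
  · exact absurd (sub_eq_zero.1 h3) hw₀
  · exact h3

theorem IsPairing.sum_right [Fintype W] [DecidableEq W] (h : IsPairing X) (a : W) :
    ∑ w, X a w = if a = 0 then (Fintype.card W : Kb) else 0 := by
  split_ifs with ha
  · subst ha
    simp [h.zero_left]
  · obtain ⟨w₀, hw₀⟩ := h.exists_ne_one_left ha
    exact (h.char a).sum_eq_zero hw₀

theorem IsPairing.sum_left [Fintype W] [DecidableEq W] (h : IsPairing X) (w : W) :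
    ∑ a, X a w = if w = 0 then (Fintype.card W : Kb) else 0 := by
  split_ifs with hw
  · subst hw
    simp [h.zero_right]
  · obtain ⟨a₀, ha₀⟩ := h.exists_ne_one_right hw
    exact (h.char_left w).sum_eq_zero ha₀

end Pairing

end Fermat.Agent.S56.SS
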