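/-
S56 W4 case C, block D (helper26): auxiliary lemmas for the assembly of `T3Prop`, `OrderPProp`:
arithmetic of the exponents, scalar actions, groups of order `p` and `p²`.
-/
import Fermat.Agent.S56.W4.C.D.Core
import Fermat.Agent.S56.W4.C.D.PairAux
import Fermat.Agent.Lib.Cyclo.ModChar

set_option autoImplicit false
set_option linter.style.haveILetI false

namespace Fermat.Agent.S56.SS

open Fermat.Agent.FFL

local notation "Kb" => AlgebraicClosure ℚ
local notation "GK" => (AlgebraicClosure ℚ ≃ₐ[ℚ] AlgebraicClosure ℚ)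

variable {p : ℕ} {P : ValuationSubring Kb} {W : Type} [AddCommGroup W] {act : GK → W → W}

/-! ### Arithmetic -/

/-- `c * p ^ k = p ^ l` with `c ∈ P` forces `k ≤ l`. -/
theorem dasm_exp_le (hp : p.Prime) (hP : P.LiesOverPrime p) {c : Kb} (hc : c ∈ P) {k l : ℕ}
    (h : c * (p : Kb) ^ k = (p : Kb) ^ l) : k ≤ l := by
  by_contra hlt
  rw [not_le] at hlt
  have hp0 : (p : Kb) ≠ 0 := Nat.cast_ne_zero.2 hp.ne_zero
  obtain ⟨j, rfl⟩ : ∃ j, k = l + 1 + j := ⟨k - (l + 1), by omega⟩
  have h1 : c * (p : Kb) ^ j * (p : Kb) = 1 := by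
    have h2 : c * (p : Kb) ^ (l + 1 + j) = (c * (p : Kb) ^ j * (p : Kb)) * (p : Kb) ^ l := by
      rw [pow_add, pow_add, pow_one]
      ring
    rw [h2] at h
    have h3 : (c * (p : Kb) ^ j * (p : Kb)) * (p : Kb) ^ l = 1 * (p : Kb) ^ l := by
      rw [h, one_mul]
    exact mul_right_cancel₀ (pow_ne_zero l hp0) h3
  have h4 : (1 : Kb) ∈ P.nonunits := by
    rw [← h1]
    exact disc_mul_nonunit (P.mul_mem _ _ hc (pow_mem (natCast_mem P p) j)) hP
  rw [P.mem_nonunits_iff, map_one] at h4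
  exact lt_irrefl _ h4

/-- `(α α') ^ 2 * p ^ k = p ^ k` with `α, α' ∈ P` forces `α` to be a unit. -/
theorem dasm_unit (hp : p.Prime) {α α' : Kb} (hα : α ∈ P) (hα' : α' ∈ P) {k : ℕ}
    (h : (α * α') ^ 2 * (p : Kb) ^ k = (p : Kb) ^ k) : α ∉ P.nonunits := by
  have hp0 : (p : Kb) ≠ 0 := Nat.cast_ne_zero.2 hp.ne_zero
  have h1 : (α * α') ^ 2 = 1 := by
    have h3 : (α * α') ^ 2 * (p : Kb) ^ k = 1 * (p : Kb) ^ k := by rw [h, one_mul]
    exact mul_right_cancel₀ (pow_ne_zero k hp0) h3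
  intro hnon
  have h2 : (1 : Kb) ∈ P.nonunits := by
    rw [← h1]
    have : (α * α') ^ 2 = (α' * (α * α')) * α := by ring
    rw [this]
    exact disc_mul_nonunit (P.mul_mem _ _ hα' (P.mul_mem _ _ hα hα')) hnon
  rw [P.mem_nonunits_iff, map_one] at h2
  exact lt_irrefl _ h2

/-! ### Scalar actions -/

/-- If the dual action of `σ` is trivial, `σ` acts on `W` as a scalar. -/
theorem dasm_scalar [Finite W] {X : W → W → Kb} (hX : IsPairing X) (σ : GK)
    (h : ∀ a w, X a (act σ w) = σ (X a w)) : ∃ k : ℕ, ∀ w, act σ w = k • w := by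
  have hn : Nat.card W ≠ 0 := Nat.card_ne_zero.2 ⟨⟨0⟩, inferInstance⟩
  haveI : NeZero (Nat.card W) := ⟨hn⟩
  refine ⟨((Fermat.Agent.Cyclo.modChar (Nat.card W) σ : (ZMod (Nat.card W))ˣ) :
    ZMod (Nat.card W)).val, fun w => ?_⟩
  apply hX.injective_right
  intro a
  rw [h a w, Fermat.Agent.Cyclo.modChar_spec (Nat.card W) σ (hX.pow_card a w),
    (hX.char a).map_nsmul]

/-- A scalar action preserves all subgroups. -/
theorem dasm_scalar_stable (N : AddSubgroup W) {σ : GK} {k : ℕ} (h : ∀ w, act σ w = k • w) :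
    ∀ n ∈ N, act σ n ∈ N := fun n hn => by
  rw [h]
  exact N.nsmul_mem hn k

/-! ### Groups of order `p²` and `p` -/

/-- A group of order `p²` has a subgroup which is neither trivial nor everything. -/
theorem dasm_exists_proper [Finite W] (hp : p.Prime) (hcard : Nat.card W = p ^ 2) :
    ∃ N : AddSubgroup W, N ≠ ⊥ ∧ N ≠ ⊤ := by
  haveI : Fact p.Prime := ⟨hp⟩
  have hdvd : p ∣ Nat.card W := by
    rw [hcard]
    exact dvd_pow_self p two_ne_zero
  obtain ⟨x, hx⟩ := exists_prime_addOrderOf_dvd_card' p hdvd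
  refine ⟨AddSubgroup.zmultiples x, ?_, ?_⟩
  · intro h
    have h1 : x ∈ AddSubgroup.zmultiples x := AddSubgroup.mem_zmultiples x
    rw [h, AddSubgroup.mem_bot] at h1
    rw [h1, addOrderOf_zero] at hx
    exact hp.one_lt.ne' hx.symm
  · intro h
    have h1 : Nat.card (AddSubgroup.zmultiples x) = p := by
      rw [Nat.card_zmultiples, hx]
    rw [h, AddSubgroup.card_top, hcard] at h1
    have h2 : p ^ 2 = p ^ 1 := by rw [h1, pow_one]
    have := Nat.pow_right_injective hp.two_le h2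
    omega

/-- In a group of prime order every subgroup is trivial. -/
theorem dasm_simple_of_prime [Finite W] (hp : p.Prime) (hcard : Nat.card W = p)
    (N : AddSubgroup W) : N = ⊥ ∨ N = ⊤ := by
  haveI : Fact (Nat.card W).Prime := ⟨hcard ▸ hp⟩
  exact AddSubgroup.eq_bot_or_eq_top_of_prime_card N

/-- Additive endomorphisms of a group of prime order commute. -/
theorem dasm_comm_of_prime [Finite W] (hp : p.Prime) (hcard : Nat.card W = p)
    (f g : W → W) (hf : ∀ w w', f (w + w') = f w + f w')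
    (hg : ∀ w w', g (w + w') = g w + g w') (w : W) : f (g w) = g (f w) := by
  haveI : Fact p.Prime := ⟨hp⟩
  have hf0 : f 0 = 0 := by
    have := hf 0 0
    rw [add_zero] at this
    exact left_eq_add.1 this
  have hg0 : g 0 = 0 := by
    have := hg 0 0
    rw [add_zero] at this
    exact left_eq_add.1 this
  have hfn : ∀ (n : ℕ) (v : W), f (n • v) = n • f v := by
    intro n v
    induction n with
    | zero => rw [zero_smul, zero_smul, hf0]
    | succ n ih => rw [succ_nsmul, succ_nsmul, hf, ih]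
  have hgn : ∀ (n : ℕ) (v : W), g (n • v) = n • g v := by
    intro n v
    induction n with
    | zero => rw [zero_smul, zero_smul, hg0]
    | succ n ih => rw [succ_nsmul, succ_nsmul, hg, ih]
  haveI : IsAddCyclic W := isAddCyclic_of_prime_card hcard
  obtain ⟨g₀, hg₀⟩ := IsAddCyclic.exists_generator (α := W)
  have hmul : ∀ v : W, ∃ n : ℕ, v = n • g₀ := by
    intro v
    have hv : v ∈ AddSubgroup.zmultiples g₀ := hg₀ v
    rw [← mem_multiples_iff_mem_zmultiples, AddSubmonoid.mem_multiples_iff] at hv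
    obtain ⟨n, hn⟩ := hv
    exact ⟨n, hn.symm⟩
  obtain ⟨a, ha⟩ := hmul (f g₀)
  obtain ⟨b, hb⟩ := hmul (g g₀)
  obtain ⟨n, rfl⟩ := hmul w
  rw [hgn, hfn, hfn, hgn, hb, ha, hfn, hgn, ha, hb, smul_smul, smul_smul, smul_smul, smul_smul]
  congr 1
  ring

end Fermat.Agent.S56.SS
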