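/-
S56 W4 case C, block D (helper26): **assembly** of `T3Prop` and `OrderPProp` from the leaves
(`D/Defs.lean`) and the discriminant estimate.
-/
import Fermat.Agent.S56.W4.C.D.AsmAux

set_option autoImplicit false
set_option linter.style.haveILetI false

namespace Fermat.Agent.S56.SS

open Fermat.Agent.FFL

local notation "Kb" => AlgebraicClosure ℚ
local notation "GK" => (AlgebraicClosure ℚ ≃ₐ[ℚ] AlgebraicClosure ℚ)

variable {p : ℕ} {P : ValuationSubring Kb}

/-- The leaves of block D. -/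
structure DLeaves (p : ℕ) (P : ValuationSubring Kb) : Prop where
  basis : BasisProp p P
  char : CharProp p P
  pair : PairProp
  det : DualDetProp
  dact : DualActProp P
  fam : DualFamProp p P
  red : RedProp P
  schur : SchurProp P
  orbit : OrbitProp

/-- **OrderP** from the leaves. -/
theorem orderPProp_of_leaves (L : DLeaves p P) : OrderPProp p P := by
  classical
  intro hp _ hP W _ _ act O hact hcard
  by_contra hcon
  rw [not_or] at hcon
  obtain ⟨h1, h2⟩ := hcon
  haveI : Fintype W := Fintype.ofFinite W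
  have hcardF : Fintype.card W = p := by rw [← Nat.card_eq_fintype_card, hcard]
  have hnt : ∃ σ ∈ P.inertiaSubgroupIn ℚ, ∃ w, act σ w ≠ w := by
    by_contra h
    exact h1 fun σ hσ w => by_contra fun hw => h ⟨σ, hσ, w, hw⟩
  have hsimple : IsSimpleAct P act := fun N _ => dasm_simple_of_prime hp hcard N
  have hcomm : IsCommAct P act := fun σ hσ τ hτ w =>
    dasm_comm_of_prime hp hcard (act σ) (act τ) (hact.1 σ hσ) (hact.1 τ hτ) w
  obtain ⟨X, hX⟩ := L.pair W
  have hnt' : ∃ σ ∈ P.inertiaSubgroupIn ℚ, ∃ χ : W → Kb, IsCharFun χ ∧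
      ∃ w, χ (act σ w) ≠ σ (χ w) := by
    by_contra h
    apply h2
    intro σ hσ a ha w
    apply hX.injective_right
    intro a'
    have h3 : X a' (act σ w) = σ (X a' w) := by
      by_contra h4
      exact h ⟨σ, hσ, X a', hX.1 a', w, h4⟩
    have h5 : (X a' w) ^ p = 1 := by
      have := hX.pow_card a' w
      rwa [hcard] at this
    rw [h3, ha _ h5, (hX.char a').map_nsmul]
  obtain ⟨b, m, m', d, d', α, α', -, hd, hd', hc, hc', hα, hα', hrel, -⟩ :=
    dcore hp hP L.basis L.char L.pair L.det L.dact L.fam L.red L.schur L.orbit O hact hcomm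
      hsimple hnt hnt' (by rw [hcardF])
  rw [hcardF] at hrel hc hc'
  have hle := dasm_exp_le hp hP (pow_mem (P.mul_mem _ _ hα hα') 2)
    (l := 2 * p) (by rw [hrel])
  have hm : 1 ≤ m := by
    rcases Nat.eq_zero_or_pos m with h | h
    · rw [h, zero_mul] at hc
      exact absurd hc hp.one_lt.ne'
    · exact h
  have hm' : 1 ≤ m' := by
    rcases Nat.eq_zero_or_pos m' with h | h
    · rw [h, zero_mul] at hc'
      exact absurd hc' hp.one_lt.ne'
    · exact h
  have e1 : m * (d + 1) = m * d + m := by ring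
  have e2 : m' * (d' + 1) = m' * d' + m' := by ring
  rw [e1, e2] at hle
  omega

/-- **T3** from the leaves. -/
theorem t3Prop_of_leaves (L : DLeaves p P) : T3Prop p P := by
  classical
  intro hp _ hP W _ _ act O hact hcard hcyc hsimple
  haveI : Fintype W := Fintype.ofFinite W
  have hcardF : Fintype.card W = p ^ 2 := by rw [← Nat.card_eq_fintype_card, hcard]
  obtain ⟨τ₀, hτ₀, hτ₀gen⟩ := hcyc
  have hcomm : IsCommAct P act := isCommAct_of_cyclic ⟨hτ₀, hτ₀gen⟩
  obtain ⟨N₀, hN₀, hN₀'⟩ := dasm_exists_proper (W := W) hp hcard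
  have hnt : ∃ σ ∈ P.inertiaSubgroupIn ℚ, ∃ w, act σ w ≠ w := by
    by_contra h
    have htriv : ∀ σ ∈ P.inertiaSubgroupIn ℚ, ∀ w, act σ w = w :=
      fun σ hσ w => by_contra fun hw => h ⟨σ, hσ, w, hw⟩
    rcases hsimple N₀ (fun σ hσ n hn => by rw [htriv σ hσ n]; exact hn) with h3 | h3
    · exact hN₀ h3
    · exact hN₀' h3
  obtain ⟨X, hX⟩ := L.pair W
  have hnt' : ∃ σ ∈ P.inertiaSubgroupIn ℚ, ∃ χ : W → Kb, IsCharFun χ ∧
      ∃ w, χ (act σ w) ≠ σ (χ w) := by
    by_contra h
    have hsc : ∀ σ ∈ P.inertiaSubgroupIn ℚ, ∃ k : ℕ, ∀ w, act σ w = k • w := by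
      intro σ hσ
      refine dasm_scalar hX σ (fun a w => ?_)
      by_contra h4
      exact h ⟨σ, hσ, X a, hX.1 a, w, h4⟩
    rcases hsimple N₀ (fun σ hσ n hn => by
      obtain ⟨k, hk⟩ := hsc σ hσ
      exact dasm_scalar_stable N₀ hk n hn) with h3 | h3
    · exact hN₀ h3
    · exact hN₀' h3
  obtain ⟨b, m, m', d, d', α, α', hb, hd, hd', hc, hc', hα, hα', hrel, hfin⟩ :=
    dcore hp hP L.basis L.char L.pair L.det L.dact L.fam L.red L.schur L.orbit O hact hcomm
      hsimple hnt hnt' (by rw [hcardF]; exact dvd_pow_self p two_ne_zero)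
  rw [hcardF] at hrel hc hc'
  have hrel' : (α * α') ^ 2 * (p : Kb) ^ (2 * (m * (d + 1) + m' * (d' + 1))) =
      (p : Kb) ^ (2 * (2 * p ^ 2)) := by
    rw [hrel]
    push_cast
    rw [← pow_mul]
  have hle := dasm_exp_le hp hP (pow_mem (P.mul_mem _ _ hα hα') 2) hrel'
  have hp2 : 2 ≤ p := hp.two_le
  have hpp : 4 ≤ p ^ 2 := by nlinarith
  have hm : 1 ≤ m := by
    rcases Nat.eq_zero_or_pos m with h | h
    · rw [h, zero_mul] at hc
      omega
    · exact h
  have hm' : 1 ≤ m' := by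
    rcases Nat.eq_zero_or_pos m' with h | h
    · rw [h, zero_mul] at hc'
      omega
    · exact h
  have e1 : m * (d + 1) = m * d + m := by ring
  have e2 : m' * (d' + 1) = m' * d' + m' := by ring
  have hm1 : m = 1 := by
    rw [e1, e2] at hle
    omega
  have hm1' : m' = 1 := by
    rw [e1, e2] at hle
    omega
  have hexp : 2 * (m * (d + 1) + m' * (d' + 1)) = 2 * (2 * p ^ 2) := by
    rw [e1, e2]
    omega
  rw [hexp] at hrel'
  have hunit : α ∉ P.nonunits := dasm_unit hp hα hα' hrel'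
  obtain ⟨htrans, i, hi⟩ := hfin hunit hm1
  have hdeq : d = p ^ 2 - 1 := by
    rw [hm1, one_mul] at hc
    omega
  refine ⟨htrans, ?_⟩
  -- the function `Z = b i - b i 0`
  have hr : b i 0 ∈ inertiaRing P :=
    ⟨O.int _ (hb.1 i) 0, fun σ hσ => by
      rw [← O.equiv _ (hb.1 i) σ hσ 0, iact_zero hact hσ]⟩
  have hZ : (fun w => b i w - b i 0) ∈ O.alg := by
    have h1 : (fun w => b i w - b i 0) =
        b i - algebraMap (inertiaRing P) (W → Kb) ⟨b i 0, hr⟩ := by
      funext w
      rfl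
    rw [h1]
    exact Subalgebra.sub_mem _ (hb.1 i) (Subalgebra.algebraMap_mem _ _)
  refine ⟨fun w => b i w - b i 0, hZ, sub_self _, fun a ha => ?_⟩
  have hu := hi a ha
  rw [hdeq] at hu
  refine ⟨?_, ?_, ?_⟩
  · show (b i a - b i 0) ^ (p ^ 2 - 1) / (p : Kb) ^ 1 ∈ P
    rw [pow_one]
    exact hu.mem
  · intro h0
    have h0' : b i a - b i 0 = 0 := h0
    have hne : p ^ 2 - 1 ≠ 0 := by omega
    rw [h0', zero_pow hne, zero_div] at hu
    exact hu.ne_zero rfl
  · show (p : Kb) ^ 1 / (b i a - b i 0) ^ (p ^ 2 - 1) ∈ P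
    have := hu.inv.mem
    rwa [inv_div, ← pow_one (p : Kb)] at this

end Fermat.Agent.S56.SS
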