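/-
S56, WALL W4, CASE C, BLOCK D, leaf BASIS (helper97): an `I`-order has an `R'`-basis indexed by
`W`, linearly independent over `ℚ̄`.

* `O.alg` is a finitely generated torsion-free module over the PID `R' = inertiaRing P`, hence
  free: basis `B : Fin n → O.alg`;
* Galois descent (`linearIndependent_of_inertia_equivariant`): a family of inertia-equivariant
  functions `W → ℚ̄` which is linearly independent over `R'` is linearly independent over `ℚ̄`
  (a relation with a minimal number of nonzero coefficients, one of them `1`: apply `σ ∈ I` and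
  subtract; so the coefficients are inertia-fixed, and a power of `p` moves them into `R'`);
* `span = ⊤`: the basis spans all functions, so `n = |W|`.
-/
import Mathlib
import Fermat.Agent.S56.W4.C.D.Defs
import Fermat.Agent.Lib.FFL.EtMax

set_option autoImplicit false

namespace Fermat.Agent.S56.SS

open Fermat.Agent.FFL

local notation "Kb" => AlgebraicClosure ℚ
local notation "GK" => (AlgebraicClosure ℚ ≃ₐ[ℚ] AlgebraicClosure ℚ)

variable {p : ℕ} {P : ValuationSubring Kb} {W : Type} [AddCommGroup W] {act : GK → W → W}

/-- inertia acts by bijections. -/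
theorem basis_act_act_inv (hact : IsIAction P act) {σ : GK} (hσ : σ ∈ P.inertiaSubgroupIn ℚ)
    (w : W) : act σ (act σ⁻¹ w) = w := by
  rw [← hact.2.2 σ hσ σ⁻¹ (inv_mem hσ), mul_inv_cancel, hact.2.1]

/-- a relation between inertia-equivariant functions can be conjugated. -/
theorem basis_conj_relation (hact : IsIAction P act) {ι : Type} [Fintype ι] (b : ι → W → Kb)
    (hb : ∀ i, ∀ σ ∈ P.inertiaSubgroupIn ℚ, ∀ w : W, b i (act σ w) = σ (b i w))
    (c : ι → Kb) (hc : ∑ i, c i • b i = 0) {σ : GK} (hσ : σ ∈ P.inertiaSubgroupIn ℚ) :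
    ∑ i, σ (c i) • b i = 0 := by
  funext w
  have h0 : ∑ i, c i * b i (act σ⁻¹ w) = 0 := by
    have := congrFun hc (act σ⁻¹ w)
    simpa [Finset.sum_apply] using this
  have h1 : σ (∑ i, c i * b i (act σ⁻¹ w)) = 0 := by rw [h0, map_zero]
  rw [map_sum] at h1
  rw [Finset.sum_apply, Pi.zero_apply, ← h1]
  refine Finset.sum_congr rfl fun i _ => ?_
  rw [Pi.smul_apply, smul_eq_mul, map_mul, ← hb i σ hσ, basis_act_act_inv hact hσ]

/-- **Galois descent**: inertia-equivariant functions which are linearly independent over the
inertia ring are linearly independent over `ℚ̄`. -/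
theorem linearIndependent_of_inertia_equivariant (hp : p.Prime) (hP : P.LiesOverPrime p)
    (hact : IsIAction P act) {ι : Type} [Fintype ι] (b : ι → W → Kb)
    (hb : ∀ i, ∀ σ ∈ P.inertiaSubgroupIn ℚ, ∀ w : W, b i (act σ w) = σ (b i w))
    (hli : ∀ r : ι → Kb, (∀ i, r i ∈ inertiaRing P) → ∑ i, r i • b i = 0 → ∀ i, r i = 0) :
    LinearIndependent Kb b := by
  classical
  have hp0 : (p : Kb) ≠ 0 := Nat.cast_ne_zero.2 hp.ne_zero
  -- induction on the number of nonzero coefficients
  have key : ∀ k : ℕ, ∀ c : ι → Kb, (Finset.univ.filter fun i => c i ≠ 0).card = k →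
      ∑ i, c i • b i = 0 → ∀ i, c i = 0 := by
    intro k
    induction k using Nat.strong_induction_on with
    | _ k ih =>
      intro c hk hc
      by_contra hne
      obtain ⟨i₀, hi₀⟩ := not_forall.mp hne
      -- normalise
      set c' : ι → Kb := fun i => c i / c i₀ with hc'
      have hc'0 : c' i₀ = 1 := div_self hi₀
      have hc'rel : ∑ i, c' i • b i = 0 := by
        have : ∑ i, c' i • b i = (c i₀)⁻¹ • ∑ i, c i • b i := by
          rw [Finset.smul_sum]
          refine Finset.sum_congr rfl fun i _ => ?_
          rw [smul_smul]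
          show (c i / c i₀) • b i = ((c i₀)⁻¹ * c i) • b i
          rw [div_eq_inv_mul]
        rw [this, hc, smul_zero]
      have hsupp : ∀ i, c' i ≠ 0 → c i ≠ 0 := by
        intro i hi h
        apply hi
        rw [hc']
        simp [h]
      -- the coefficients are fixed by inertia
      have hfix : ∀ σ ∈ P.inertiaSubgroupIn ℚ, ∀ i, σ (c' i) = c' i := by
        intro σ hσ
        have hrel := basis_conj_relation hact b hb c' hc'rel hσ
        set d : ι → Kb := fun i => σ (c' i) - c' i with hd
        have hdrel : ∑ i, d i • b i = 0 := by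
          have : ∑ i, d i • b i = ∑ i, σ (c' i) • b i - ∑ i, c' i • b i := by
            rw [← Finset.sum_sub_distrib]
            refine Finset.sum_congr rfl fun i _ => ?_
            rw [hd, sub_smul]
          rw [this, hrel, hc'rel, sub_zero]
        have hlt : (Finset.univ.filter fun i => d i ≠ 0).card < k := by
          rw [← hk]
          apply Finset.card_lt_card
          rw [Finset.ssubset_iff_of_subset]
          · refine ⟨i₀, ?_, ?_⟩
            · simp [hi₀]
            · simp [hd, hc'0]
          · intro i hi
            rw [Finset.mem_filter] at hi ⊢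
            refine ⟨Finset.mem_univ _, hsupp i ?_⟩
            intro h0
            apply hi.2
            rw [hd]
            simp [h0]
        have := ih _ hlt d rfl hdrel
        intro i
        exact sub_eq_zero.mp (this i)
      -- a common power of `p` moves the coefficients into the inertia ring
      have hpow : ∀ i, ∃ n : ℕ, (p : Kb) ^ n * c' i ∈ inertiaRing P := fun i =>
        exists_pow_mul_mem_inertiaRing hp.ne_zero hP (unrProp p hp P hP) (dvdProp hp hP)
          (fun σ hσ => hfix σ hσ i)
      choose n hn using hpow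
      have hpmem : ∀ m : ℕ, (p : Kb) ^ m ∈ inertiaRing P := fun m =>
        (inertiaRing P).pow_mem (base_natCast_mem_inertiaRing P p) m
      set N : ℕ := ∑ i, n i with hN
      have hr : ∀ i, (p : Kb) ^ N * c' i ∈ inertiaRing P := by
        intro i
        have hle : n i ≤ N := Finset.single_le_sum (f := n) (fun _ _ => Nat.zero_le _)
          (Finset.mem_univ i)
        have : (p : Kb) ^ N * c' i = (p : Kb) ^ (N - n i) * ((p : Kb) ^ (n i) * c' i) := by
          rw [← mul_assoc, ← pow_add, Nat.sub_add_cancel hle]
        rw [this]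
        exact (inertiaRing P).mul_mem (hpmem _) (hn i)
      have hrrel : ∑ i, ((p : Kb) ^ N * c' i) • b i = 0 := by
        have : ∑ i, ((p : Kb) ^ N * c' i) • b i = (p : Kb) ^ N • ∑ i, c' i • b i := by
          rw [Finset.smul_sum]
          refine Finset.sum_congr rfl fun i _ => ?_
          rw [smul_smul]
        rw [this, hc'rel, smul_zero]
      have h0 := hli _ hr hrrel i₀
      rw [hc'0, mul_one] at h0
      exact pow_ne_zero N hp0 h0
  rw [Fintype.linearIndependent_iff]
  intro c hc
  exact key _ c rfl hc

/-- **BASIS**. -/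
theorem basisProp (p : ℕ) (P : ValuationSubring Kb) : BasisProp p P := by
  intro hp hP W _ _ act O hact
  classical
  have : IsPrincipalIdealRing (inertiaRing P) :=
    inertiaRing_isPrincipalIdealRing hp.ne_zero hP (unrProp p hp P hP) (dvdProp hp hP)
  have : Module.Finite (inertiaRing P) ↥(Subalgebra.toSubmodule O.alg) :=
    Module.Finite.iff_fg.mpr O.fg
  obtain ⟨n, B⟩ := Module.basisOfFiniteTypeTorsionFree' (R := inertiaRing P)
    (M := ↥(Subalgebra.toSubmodule O.alg))
  set b' : Fin n → W → Kb := fun j => ((B j : ↥(Subalgebra.toSubmodule O.alg)) : W → Kb) with hb'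
  have hb'mem : ∀ j, b' j ∈ O.alg := fun j => (B j).2
  -- coordinates
  have hrepr : ∀ f ∈ O.alg, ∃ c : Fin n → Kb, (∀ j, c j ∈ inertiaRing P) ∧
      f = ∑ j, c j • b' j := by
    intro f hf
    refine ⟨fun j => ((B.repr ⟨f, hf⟩ j : inertiaRing P) : Kb), fun j => Subtype.property _, ?_⟩
    have h1 := B.sum_repr ⟨f, hf⟩
    have h2 := congrArg (Subtype.val : ↥(Subalgebra.toSubmodule O.alg) → (W → Kb)) h1
    rw [AddSubmonoidClass.coe_finsetSum] at h2
    exact h2.symm
  -- linear independence over `ℚ̄`
  have hli : LinearIndependent Kb b' := by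
    refine linearIndependent_of_inertia_equivariant hp hP hact b'
      (fun j σ hσ w => O.equiv _ (hb'mem j) σ hσ w) ?_
    intro r hr hrel
    have h1 : ∑ j, (⟨r j, hr j⟩ : inertiaRing P) • B j = 0 := by
      apply Subtype.ext
      rw [AddSubmonoidClass.coe_finsetSum]
      exact hrel
    have h2 := Fintype.linearIndependent_iff.mp B.linearIndependent _ h1
    intro j
    exact congrArg Subtype.val (h2 j)
  -- the basis spans all functions
  have hspan : ⊤ ≤ Submodule.span Kb (Set.range b') := by
    rw [← O.span, Submodule.span_le]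
    intro f hf
    obtain ⟨c, -, hc⟩ := hrepr f hf
    rw [hc]
    exact Submodule.sum_mem _ fun j _ =>
      Submodule.smul_mem _ _ (Submodule.subset_span ⟨j, rfl⟩)
  -- cardinality
  have hcard : Fintype.card W = Fintype.card (Fin n) := by
    have h1 := Module.finrank_eq_card_basis (Module.Basis.mk hli hspan)
    rw [Module.finrank_pi] at h1
    exact h1
  let e : W ≃ Fin n := Fintype.equivOfCardEq hcard
  refine ⟨fun i => b' (e i), fun i => hb'mem _, hli.comp e e.injective, fun f hf => ?_⟩
  obtain ⟨c, hcmem, hc⟩ := hrepr f hf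
  refine ⟨fun i => c (e i), fun i => hcmem _, ?_⟩
  rw [hc]
  exact (Equiv.sum_comp e (fun j => c j • b' j)).symm

end Fermat.Agent.S56.SS
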