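/-
S56, wall W4, case C, block D, leaf CHAR (helper80): the coefficients of a character in a basis of
an `I`-order are in `P` (port of `Lib/FFL/Char.lean` from `HopfOrder` to `IOrd`).

`b` a basis of the `I`-order `O` (`IsOrdBasis`), `pComb P b` = the `P`-combinations of the `b i`.
For a functional `u` which is `P`-valued on `pComb` the shift operator `T_u`
(`Fermat.Agent.FFL.shiftFun`) preserves `pComb` (comultiplication of `O`), and `T_u χ = u χ • χ` for a
character `χ`.  FULL (`DvdProp`): `p ^ N • χ ∈ pComb`; so `p ^ N (u χ) ^ n = (T_u ^ n (p ^ N χ)) 0 ∈ P`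
for all `n`, and `u χ ∈ P` by `IntProp`.  Apply this to the coordinate functionals of `b`.
-/
import Fermat.Agent.S56.W4.C.D.Defs
import Fermat.Agent.Lib.FFL.Char
import Fermat.Agent.Lib.FFL.Arith

set_option autoImplicit false
set_option linter.unusedSectionVars false

namespace Fermat.Agent.S56.SS

open Fermat.Agent.FFL

local notation "Kb" => AlgebraicClosure ℚ
local notation "GK" => (AlgebraicClosure ℚ ≃ₐ[ℚ] AlgebraicClosure ℚ)

section

variable {P : ValuationSubring Kb} {W : Type} [AddCommGroup W] [Fintype W]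

/-- The `P`-combinations of a family of functions. -/
def pComb (P : ValuationSubring Kb) (b : W → W → Kb) : Set (W → Kb) :=
  {f | ∃ a : W → Kb, (∀ i, a i ∈ P) ∧ f = ∑ i, a i • b i}

theorem pComb_basis_mem (b : W → W → Kb) (i : W) : b i ∈ pComb P b := by
  classical
  refine ⟨fun j => if j = i then 1 else 0, fun j => ?_, ?_⟩
  · by_cases h : j = i
    · simp only [h, if_true]; exact P.one_mem
    · simp only [h, if_false]; exact P.zero_mem
  · simp

theorem pComb_sum_mem (b : W → W → Kb) {ι : Type*} (s : Finset ι) (c : ι → Kb) (f : ι → W → Kb)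
    (hc : ∀ j ∈ s, c j ∈ P) (hf : ∀ j ∈ s, f j ∈ pComb P b) :
    (∑ j ∈ s, c j • f j) ∈ pComb P b := by
  classical
  induction s using Finset.induction_on with
  | empty =>
    refine ⟨fun _ => 0, fun _ => P.zero_mem, ?_⟩
    simp
  | insert j s hj ih =>
    obtain ⟨a, ha, hfa⟩ := ih (fun x hx => hc x (Finset.mem_insert_of_mem hx))
      (fun x hx => hf x (Finset.mem_insert_of_mem hx))
    obtain ⟨a', ha', hfa'⟩ := hf j (Finset.mem_insert_self j s)
    refine ⟨fun i => c j * a' i + a i, fun i =>
      P.add_mem _ _ (P.mul_mem _ _ (hc j (Finset.mem_insert_self j s)) (ha' i)) (ha i), ?_⟩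
    rw [Finset.sum_insert hj, hfa, hfa', Finset.smul_sum, ← Finset.sum_add_distrib]
    refine Finset.sum_congr rfl (fun i _ => ?_)
    rw [add_smul, mul_smul]

theorem pComb_of_mem_alg {act : GK → W → W} (O : IOrd P W act) {b : W → W → Kb}
    (hb : IsOrdBasis O b) {f : W → Kb} (hf : f ∈ O.alg) : f ∈ pComb P b := by
  obtain ⟨c, hc, rfl⟩ := hb.2.2 f hf
  exact ⟨c, fun i => (hc i).1, rfl⟩

theorem pComb_apply_mem {act : GK → W → W} (O : IOrd P W act) {b : W → W → Kb}
    (hb : IsOrdBasis O b) {f : W → Kb} (hf : f ∈ pComb P b) (w : W) : f w ∈ P := by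
  obtain ⟨a, ha, rfl⟩ := hf
  rw [Finset.sum_apply]
  refine P.toSubring.sum_mem (fun i _ => ?_)
  show a i * b i w ∈ P
  exact P.mul_mem _ _ (ha i) (O.int _ (hb.1 i) w)

/-- The shift operator is additive and homogeneous. -/
theorem shiftFun_sum_smul (u : (W → Kb) →ₗ[Kb] Kb) (a : W → Kb) (b : W → W → Kb) :
    shiftFun u (∑ i, a i • b i) = ∑ i, a i • shiftFun u (b i) := by
  funext w
  unfold shiftFun
  have h1 : (fun w' => (∑ i, a i • b i) (w + w')) = ∑ i, a i • (fun w' => b i (w + w')) := by
    funext w'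
    simp only [Finset.sum_apply, Pi.smul_apply]
  rw [h1, map_sum]
  simp only [map_smul, Finset.sum_apply, Pi.smul_apply]

/-- If `u` is `P`-valued on the `P`-combinations, `T_u` preserves them. -/
theorem shiftFun_mem_pComb {act : GK → W → W} (O : IOrd P W act) {b : W → W → Kb}
    (hb : IsOrdBasis O b) (u : (W → Kb) →ₗ[Kb] Kb) (hu : ∀ f ∈ pComb P b, u f ∈ P)
    {f : W → Kb} (hf : f ∈ pComb P b) : shiftFun u f ∈ pComb P b := by
  have hbasis : ∀ i, shiftFun u (b i) ∈ pComb P b := by
    intro i
    obtain ⟨n, g, h, hg, hh, hgh⟩ := O.comul (b i) (hb.1 i)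
    have h1 : shiftFun u (b i) = ∑ j, u (h j) • g j := by
      funext w
      unfold shiftFun
      have h2 : (fun w' => b i (w + w')) = ∑ j, g j w • h j := by
        funext w'
        rw [hgh]
        simp only [Finset.sum_apply, Pi.smul_apply, smul_eq_mul]
      rw [h2, map_sum]
      simp only [map_smul, smul_eq_mul, Finset.sum_apply, Pi.smul_apply]
      exact Finset.sum_congr rfl (fun j _ => mul_comm _ _)
    rw [h1]
    exact pComb_sum_mem b Finset.univ _ _
      (fun j _ => hu _ (pComb_of_mem_alg O hb (hh j)))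
      (fun j _ => pComb_of_mem_alg O hb (hg j))
  obtain ⟨a, ha, rfl⟩ := hf
  rw [shiftFun_sum_smul]
  exact pComb_sum_mem b Finset.univ _ _ (fun i _ => ha i) (fun i _ => hbasis i)

theorem shiftFun_iterate_mem_pComb {act : GK → W → W} (O : IOrd P W act) {b : W → W → Kb}
    (hb : IsOrdBasis O b) (u : (W → Kb) →ₗ[Kb] Kb) (hu : ∀ f ∈ pComb P b, u f ∈ P)
    {f : W → Kb} (hf : f ∈ pComb P b) (n : ℕ) : (shiftFun u)^[n] f ∈ pComb P b := by
  induction n with
  | zero => exact hf
  | succ n ih =>
    rw [Function.iterate_succ_apply']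
    exact shiftFun_mem_pComb O hb u hu ih

end

/-- **CHAR**: the coefficients of a character in a basis of an `I`-order are in `P`. -/
theorem charProp (p : ℕ) (P : ValuationSubring Kb) : CharProp p P := by
  intro hp hP W _ _ act O b hb χ hχ c hc i
  classical
  have hint : IntProp p P := intProp hp hP
  have hdvd : DvdProp p P := dvdProp hp hP
  -- the basis of all functions given by `b`
  have hcard : Fintype.card W = Module.finrank Kb (W → Kb) := by
    rw [Module.finrank_pi]
  let B : Module.Basis W Kb (W → Kb) := basisOfLinearIndependentOfCardEqFinrank hb.2.1 hcard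
  have hB : ∀ j, B j = b j := fun j => by
    show basisOfLinearIndependentOfCardEqFinrank hb.2.1 hcard j = b j
    rw [coe_basisOfLinearIndependentOfCardEqFinrank]
  have hcoordsum : ∀ (a : W → Kb) (j : W), B.coord j (∑ l, a l • b l) = a j := by
    intro a j
    have h2 : (∑ l, a l • b l) = ∑ l, a l • B l := by simp only [hB]
    rw [h2, Module.Basis.coord_apply, Module.Basis.repr_sum_self]
  -- the coordinate functionals are `P`-valued on the `P`-combinations
  have hcoord : ∀ j, ∀ f ∈ pComb P b, B.coord j f ∈ P := by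
    rintro j f ⟨a, ha, rfl⟩
    rw [hcoordsum]
    exact ha j
  -- FULL: a `p`-power multiple of `χ` is a `P`-combination
  obtain ⟨N, hN⟩ : ∃ N : ℕ, (fun w => (p : Kb) ^ N * χ w) ∈ pComb P b := by
    choose m hm using fun l => exists_pow_mul_mem P hdvd (c l)
    refine ⟨∑ l, m l, fun l => (p : Kb) ^ (∑ l, m l) * c l, fun l => hm l _ ?_, ?_⟩
    · exact Finset.single_le_sum (fun j _ => Nat.zero_le (m j)) (Finset.mem_univ l)
    · funext w
      rw [hc]
      simp only [Finset.sum_apply, Pi.smul_apply, smul_eq_mul, Finset.mul_sum, mul_assoc]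
  have hci : c i = B.coord i χ := by
    rw [hc, hcoordsum]
  rw [hci]
  refine hint _ ⟨N, fun n => ?_⟩
  have h1 := shiftFun_iterate_mem_pComb O hb (B.coord i) (hcoord i) hN n
  rw [shiftFun_iterate_char (B.coord i) χ hχ.2] at h1
  have h2 := pComb_apply_mem O hb h1 0
  rw [hχ.1, mul_one] at h2
  exact h2

end Fermat.Agent.S56.SS
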