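/-
S56 / W4 / case C / block D, leaf PAIR (helper50): a finite abelian group has a perfect pairing
with values in `ℚ̄` (`pairProp : PairProp`).
-/
import Fermat.Agent.S56.W4.C.D.PairAux

set_option autoImplicit false
set_option linter.style.haveILetI false

namespace Fermat.Agent.S56.SS

open Fermat.Agent.FFL

local notation "Kb" => AlgebraicClosure ℚ
local notation "GK" => (AlgebraicClosure ℚ ≃ₐ[ℚ] AlgebraicClosure ℚ)

/-- `ℚ̄` has enough roots of unity for every finite group. -/
theorem pair_hasEnoughRootsOfUnity (n : ℕ) (hn : n ≠ 0) : HasEnoughRootsOfUnity Kb n := by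
  haveI : NeZero ((n : ℕ) : ℚ) := ⟨by exact_mod_cast hn⟩
  infer_instance

/-- **PAIR**: a finite abelian group has a perfect pairing with values in `ℚ̄`. -/
theorem pairProp : PairProp := by
  intro W _ _
  classical
  haveI : HasEnoughRootsOfUnity Kb (Monoid.exponent (Multiplicative W)) :=
    pair_hasEnoughRootsOfUnity _ Monoid.exponent_ne_zero_of_finite
  obtain ⟨e⟩ := CommGroup.monoidHom_mulEquiv_of_hasEnoughRootsOfUnity (Multiplicative W) Kb
  refine ⟨fun a w => ((e.symm (Multiplicative.ofAdd a) (Multiplicative.ofAdd w) : Kbˣ) : Kb),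
    fun a => isCharFun_of_hom _, ?_, ?_, ?_, ?_⟩
  · intro a a' w
    simp only [ofAdd_add, map_mul, MonoidHom.mul_apply, Units.val_mul]
  · intro a ha
    have h1 : e.symm (Multiplicative.ofAdd a) = 1 := by
      refine MonoidHom.ext (fun w => Units.ext ?_)
      have := ha (Multiplicative.toAdd w)
      simpa using this
    have h2 : Multiplicative.ofAdd a = 1 := by
      have := congrArg e h1
      simpa using this
    simpa using h2
  · intro w hw
    by_contra hne
    have hne' : Multiplicative.ofAdd w ≠ 1 := by
      intro h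
      apply hne
      simpa using h
    obtain ⟨φ, hφ⟩ := CommGroup.exists_apply_ne_one_of_hasEnoughRootsOfUnity
      (Multiplicative W) Kb hne'
    apply hφ
    have := hw (e φ).toAdd
    simp only [ofAdd_toAdd, MulEquiv.symm_apply_apply] at this
    exact Units.ext this
  · intro χ hχ
    refine ⟨(e hχ.toHom).toAdd, ?_⟩
    funext w
    simp only [ofAdd_toAdd, MulEquiv.symm_apply_apply]
    rfl

end Fermat.Agent.S56.SS
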