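/-
S56 / W4 / case C / block D, leaf DUALACT (helper50): the dual action on the index of a perfect
pairing exists, is an action of inertia, and inherits commutativity and simplicity
(`dualAct : DualActProp P`).

`act' σ a` := the `a'` with `X a' = fun w => σ (X a (act σ⁻¹ w))` for `σ ∈ I` (`a` otherwise).
Commutativity uses that `G_ℚ` acts on roots of unity through an abelian group; simplicity uses the
annihilator `{w | ∀ a ∈ N, X a w = 1}` and a count of characters.
-/
import Fermat.Agent.S56.W4.C.D.Pair

set_option autoImplicit false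
set_option linter.style.haveILetI false

namespace Fermat.Agent.S56.SS

open Fermat.Agent.FFL

local notation "Kb" => AlgebraicClosure ℚ
local notation "GK" => (AlgebraicClosure ℚ ≃ₐ[ℚ] AlgebraicClosure ℚ)

/-- Two automorphisms commute on a root of unity. -/
theorem dualAct_gal_comm (ζ : Kb) (n : ℕ) (hn : n ≠ 0) (hζ : ζ ^ n = 1) (σ τ : GK) :
    σ (τ ζ) = τ (σ ζ) := by
  haveI : NeZero n := ⟨hn⟩
  obtain ⟨k, hk⟩ := map_rootsOfUnity_eq_pow_self σ (rootsOfUnity.mkOfPowEq ζ hζ)
  obtain ⟨l, hl⟩ := map_rootsOfUnity_eq_pow_self τ (rootsOfUnity.mkOfPowEq ζ hζ)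
  have hk' : σ ζ = ζ ^ k := by simpa using hk
  have hl' : τ ζ = ζ ^ l := by simpa using hl
  rw [hl', hk', map_pow, map_pow, hk', hl', ← pow_mul, ← pow_mul, mul_comm]

section Act

variable {P : ValuationSubring Kb} {W : Type} [AddCommGroup W] {act : GK → W → W}

theorem IsIAction.map_add (h : IsIAction P act) {σ : GK} (hσ : σ ∈ P.inertiaSubgroupIn ℚ)
    (w w' : W) : act σ (w + w') = act σ w + act σ w' := h.1 σ hσ w w'

theorem IsIAction.map_zero (h : IsIAction P act) {σ : GK} (hσ : σ ∈ P.inertiaSubgroupIn ℚ) :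
    act σ 0 = 0 := by
  have := h.1 σ hσ 0 0
  rw [add_zero] at this
  exact left_eq_add.1 this

theorem IsIAction.one (h : IsIAction P act) (w : W) : act 1 w = w := h.2.1 w

theorem IsIAction.mul (h : IsIAction P act) {σ τ : GK} (hσ : σ ∈ P.inertiaSubgroupIn ℚ)
    (hτ : τ ∈ P.inertiaSubgroupIn ℚ) (w : W) : act (σ * τ) w = act σ (act τ w) :=
  h.2.2 σ hσ τ hτ w

theorem IsIAction.inv_cancel (h : IsIAction P act) {σ : GK} (hσ : σ ∈ P.inertiaSubgroupIn ℚ)
    (w : W) : act σ⁻¹ (act σ w) = w := by
  rw [← h.mul (inv_mem hσ) hσ, inv_mul_cancel, h.one]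

theorem IsIAction.cancel_inv (h : IsIAction P act) {σ : GK} (hσ : σ ∈ P.inertiaSubgroupIn ℚ)
    (w : W) : act σ (act σ⁻¹ w) = w := by
  rw [← h.mul hσ (inv_mem hσ), mul_inv_cancel, h.one]

theorem IsIAction.map_neg (h : IsIAction P act) {σ : GK} (hσ : σ ∈ P.inertiaSubgroupIn ℚ)
    (w : W) : act σ (-w) = -act σ w := by
  have h1 := h.map_add hσ w (-w)
  rw [add_neg_cancel, h.map_zero hσ] at h1
  exact eq_neg_of_add_eq_zero_right h1.symm

theorem IsIAction.map_sub (h : IsIAction P act) {σ : GK} (hσ : σ ∈ P.inertiaSubgroupIn ℚ)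
    (w w' : W) : act σ (w - w') = act σ w - act σ w' := by
  rw [sub_eq_add_neg, h.map_add hσ, h.map_neg hσ, sub_eq_add_neg]

end Act

section Construction

variable {P : ValuationSubring Kb} {W : Type} [AddCommGroup W] {act : GK → W → W}
  {X : W → W → Kb}

/-- The twisted character `w ↦ σ (X a (act σ⁻¹ w))`. -/
theorem dualAct_isCharFun (hact : IsIAction P act) (hX : IsPairing X) {σ : GK}
    (hσ : σ ∈ P.inertiaSubgroupIn ℚ) (a : W) :
    IsCharFun (fun w => σ (X a (act σ⁻¹ w))) :=
  ((hX.char a).comp (act σ⁻¹) (hact.map_zero (inv_mem hσ))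
    (hact.map_add (inv_mem hσ))).gal σ

open Classical in
/-- The dual action. -/
noncomputable def dualActFun (P : ValuationSubring Kb) (act : GK → W → W) (X : W → W → Kb)
    (hact : IsIAction P act) (hX : IsPairing X) : GK → W → W :=
  fun σ a => if hσ : σ ∈ P.inertiaSubgroupIn ℚ then
    Classical.choose (hX.surj (dualAct_isCharFun hact hX hσ a)) else a

theorem dualActFun_spec (hact : IsIAction P act) (hX : IsPairing X) {σ : GK}
    (hσ : σ ∈ P.inertiaSubgroupIn ℚ) (a w : W) :
    X (dualActFun P act X hact hX σ a) w = σ (X a (act σ⁻¹ w)) := by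
  unfold dualActFun
  rw [dif_pos hσ]
  exact (congrFun (Classical.choose_spec (hX.surj (dualAct_isCharFun hact hX hσ a))) w).symm

theorem dualActFun_isDualAct (hact : IsIAction P act) (hX : IsPairing X) :
    IsDualAct P act (dualActFun P act X hact hX) X := by
  intro σ hσ a w
  rw [dualActFun_spec hact hX hσ, hact.inv_cancel hσ]

theorem dualActFun_isIAction (hact : IsIAction P act) (hX : IsPairing X) :
    IsIAction P (dualActFun P act X hact hX) := by
  refine ⟨fun σ hσ a a' => ?_, fun a => ?_, fun σ hσ τ hτ a => ?_⟩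
  · apply hX.injective
    funext w
    rw [hX.add_left, dualActFun_spec hact hX hσ, dualActFun_spec hact hX hσ,
      dualActFun_spec hact hX hσ, hX.add_left, map_mul]
  · apply hX.injective
    funext w
    rw [dualActFun_spec hact hX (one_mem _), inv_one, hact.one]
    rfl
  · apply hX.injective
    funext w
    rw [dualActFun_spec hact hX (mul_mem hσ hτ), dualActFun_spec hact hX hσ,
      dualActFun_spec hact hX hτ, mul_inv_rev, hact.mul (inv_mem hτ) (inv_mem hσ)]
    rfl

theorem dualActFun_isCommAct [Finite W] (hact : IsIAction P act) (hX : IsPairing X)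
    (hc : IsCommAct P act) : IsCommAct P (dualActFun P act X hact hX) := by
  intro σ hσ τ hτ a
  apply hX.injective
  funext w
  rw [dualActFun_spec hact hX hσ, dualActFun_spec hact hX hτ, dualActFun_spec hact hX hτ,
    dualActFun_spec hact hX hσ, hc σ⁻¹ (inv_mem hσ) τ⁻¹ (inv_mem hτ) w]
  exact dualAct_gal_comm _ (Nat.card W) Nat.card_pos.ne' (hX.pow_card _ _) σ τ

/-- The annihilator of a subgroup of the index group. -/
def dualAnn (X : W → W → Kb) (hX : IsPairing X) (N : AddSubgroup W) : AddSubgroup W where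
  carrier := {w | ∀ a ∈ N, X a w = 1}
  zero_mem' := fun a _ => hX.zero_right a
  add_mem' := by
    intro w w' hw hw' a ha
    rw [hX.add_right, hw a ha, hw' a ha, one_mul]
  neg_mem' := by
    intro w hw a ha
    rw [hX.neg_right, hw a ha, inv_one]

theorem mem_dualAnn (hX : IsPairing X) (N : AddSubgroup W) (w : W) :
    w ∈ dualAnn X hX N ↔ ∀ a ∈ N, X a w = 1 := Iff.rfl

/-- If the annihilator of `N` is trivial then `N` is everything (count of characters). -/
theorem dualAnn_eq_bot [Finite W] (hX : IsPairing X) (N : AddSubgroup W)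
    (h : dualAnn X hX N = ⊥) : N = ⊤ := by
  classical
  -- the characters of `N` given by the points of `W`
  have hch : ∀ w : W, IsCharFun (fun a : N => X (a : W) w) := fun w =>
    (hX.char_left w).comp (fun a : N => (a : W)) rfl (fun _ _ => rfl)
  let Ψ : W → (Multiplicative N →* Kbˣ) := fun w => (hch w).toHom
  have hΨ : Function.Injective Ψ := by
    intro w w' hww
    have h1 : w - w' ∈ dualAnn X hX N := by
      intro a ha
      have h2 := congrArg (fun φ : Multiplicative N →* Kbˣ =>
        ((φ (Multiplicative.ofAdd (⟨a, ha⟩ : N)) : Kbˣ) : Kb)) hww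
      have h3 : X a w = X a w' := h2
      rw [(hX.char a).map_sub, h3, div_self (hX.ne_zero a w')]
    rw [h, AddSubgroup.mem_bot] at h1
    exact sub_eq_zero.1 h1
  haveI : HasEnoughRootsOfUnity Kb (Monoid.exponent (Multiplicative N)) :=
    pair_hasEnoughRootsOfUnity _ Monoid.exponent_ne_zero_of_finite
  have hcard : Nat.card (Multiplicative N →* Kbˣ) = Nat.card (Multiplicative N) :=
    CommGroup.card_monoidHom_of_hasEnoughRootsOfUnity (Multiplicative N) Kb
  have h1 : Nat.card W ≤ Nat.card N := by
    calc Nat.card W ≤ Nat.card (Multiplicative N →* Kbˣ) := Nat.card_le_card_of_injective Ψ hΨ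
      _ = Nat.card (Multiplicative N) := hcard
      _ = Nat.card N := rfl
  exact AddSubgroup.eq_top_of_le_card N h1

theorem dualActFun_isSimpleAct [Finite W] (hact : IsIAction P act) (hX : IsPairing X)
    (hs : IsSimpleAct P act) : IsSimpleAct P (dualActFun P act X hact hX) := by
  intro N hN
  have hact' := dualActFun_isIAction hact hX
  have hstable : ∀ σ ∈ P.inertiaSubgroupIn ℚ, ∀ w ∈ dualAnn X hX N,
      act σ w ∈ dualAnn X hX N := by
    intro σ hσ w hw a ha
    have h1 := dualActFun_isDualAct hact hX σ hσ (dualActFun P act X hact hX σ⁻¹ a) w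
    rw [hact'.cancel_inv hσ] at h1
    rw [h1, hw _ (hN σ⁻¹ (inv_mem hσ) a ha), map_one]
  rcases hs (dualAnn X hX N) hstable with h | h
  · right
    exact dualAnn_eq_bot hX N h
  · left
    rw [eq_bot_iff]
    intro a ha
    rw [AddSubgroup.mem_bot]
    refine hX.eq_zero_left (fun w => ?_)
    have : w ∈ dualAnn X hX N := by rw [h]; exact AddSubgroup.mem_top w
    exact this a ha

end Construction

/-- **DUALACT**. -/
theorem dualAct (P : ValuationSubring Kb) : DualActProp P := by
  intro W _ _ act X hact hX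
  exact ⟨dualActFun P act X hact hX, dualActFun_isIAction hact hX,
    dualActFun_isDualAct hact hX, dualActFun_isCommAct hact hX,
    dualActFun_isSimpleAct hact hX⟩

end Fermat.Agent.S56.SS
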