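/-
S56 / W4 / case C / block D, leaf DUALDET (helper50): the character table `(X a w)` of a perfect
pairing on a finite abelian group `W` of order `n` has `det ^ 4 = n ^ (2 n)`
(`dualDet : DualDetProp`).

Proof: `M * N = n • 1` for `N w a = X a (-w)` (orthogonality), and `N` is the transpose of `M`
with the rows permuted by `w ↦ -w`, so `det N = ± det M`.
-/
import Fermat.Agent.S56.W4.C.D.PairAux

set_option autoImplicit false

namespace Fermat.Agent.S56.SS

open Fermat.Agent.FFL

local notation "Kb" => AlgebraicClosure ℚ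
local notation "GK" => (AlgebraicClosure ℚ ≃ₐ[ℚ] AlgebraicClosure ℚ)

/-- Orthogonality in matrix form. -/
theorem dualDet_mul {W : Type} [AddCommGroup W] [Fintype W] [DecidableEq W] {X : W → W → Kb}
    (hX : IsPairing X) :
    (Matrix.of X : Matrix W W Kb) * (Matrix.of (fun w a => X a (-w)) : Matrix W W Kb) =
      (Fintype.card W : Kb) • (1 : Matrix W W Kb) := by
  ext a a'
  simp only [Matrix.mul_apply, Matrix.of_apply, Matrix.smul_apply, Matrix.one_apply, smul_eq_mul]
  have h1 : ∀ w, X a w * X a' (-w) = X (a - a') w := fun w => by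
    rw [hX.neg_right, hX.sub_left, div_eq_mul_inv]
  simp only [h1]
  rw [hX.sum_right]
  by_cases h : a = a'
  · subst h; simp
  · rw [if_neg (sub_ne_zero.2 h), if_neg h, mul_zero]

/-- The determinant of the character table: `det * (± det) = n ^ n`. -/
theorem dualDet_sq {W : Type} [AddCommGroup W] [Fintype W] [DecidableEq W] {X : W → W → Kb}
    (hX : IsPairing X) :
    ∃ ε : Kb, ε ^ 2 = 1 ∧
      ε * (Matrix.of X : Matrix W W Kb).det ^ 2 = (Fintype.card W : Kb) ^ Fintype.card W := by
  set M : Matrix W W Kb := Matrix.of X with hM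
  set N : Matrix W W Kb := Matrix.of (fun w a => X a (-w)) with hN
  have hNM : N = (M.transpose).submatrix (Equiv.neg W) id := by
    ext w a
    simp [hN, hM, Matrix.submatrix_apply, Matrix.transpose_apply]
  have hdetN : N.det = ((Equiv.Perm.sign (Equiv.neg W) : ℤˣ) : ℤ) * M.det := by
    rw [hNM, Matrix.det_permute, Matrix.det_transpose]
  have hdet : M.det * N.det = (Fintype.card W : Kb) ^ Fintype.card W := by
    rw [← Matrix.det_mul, dualDet_mul hX, Matrix.det_smul, Matrix.det_one, mul_one]
  refine ⟨(((Equiv.Perm.sign (Equiv.neg W) : ℤˣ) : ℤ) : Kb), ?_, ?_⟩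
  · have : (((Equiv.Perm.sign (Equiv.neg W) : ℤˣ) : ℤ)) ^ 2 = 1 := by
      rw [← Units.val_pow_eq_pow_val, Int.units_sq, Units.val_one]
    exact_mod_cast this
  · rw [← hdet, hdetN]; ring

/-- **DUALDET**: the character table has `det ^ 4 = n ^ (2 n)`. -/
theorem dualDet : DualDetProp := by
  intro W _ _ _ X hX
  obtain ⟨ε, hε, h⟩ := dualDet_sq hX
  calc (Matrix.of X).det ^ 4 = ε ^ 2 * ((Matrix.of X).det ^ 2) ^ 2 := by rw [hε]; ring
    _ = (ε * (Matrix.of X).det ^ 2) ^ 2 := by ring
    _ = (Fintype.card W : Kb) ^ (2 * Fintype.card W) := by rw [h, ← pow_mul, mul_comm]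

end Fermat.Agent.S56.SS
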