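/-
S56 / W4 / case C / block D, leaf DUALFAM (helper50): the coefficient family `β` of the pairing
`X a = ∑ i, β i a • b i` in a basis of an `I`-order is equivariant for the dual action, and
congruent to its value at `0` modulo `𝔪_P` on the augmentation subgroup of the dual action
(`dualFam : DualFamProp p P`).

Equivariance: apply `σ` to `X a = ∑ β i a • b i` and compare coefficients.
Congruence: `β i (a + a') = ∑ c j k i β j a β k a'` (structure constants of the multiplication of
`O.alg`) and `β i (-a) = ∑ n j i β j a` (`O.neg`), so the points with `β i a ≡ β i 0` form a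
subgroup, which contains the `act' σ a - a`.
-/
import Fermat.Agent.S56.W4.C.D.DualAct
import Fermat.Agent.S56.W4.C.D.Red

set_option autoImplicit false

namespace Fermat.Agent.S56.SS

open Fermat.Agent.FFL

local notation "Kb" => AlgebraicClosure ℚ
local notation "GK" => (AlgebraicClosure ℚ ≃ₐ[ℚ] AlgebraicClosure ℚ)

/-- Uniqueness of the coefficients in a linearly independent family of functions. -/
theorem dualFam_coeff_unique {W : Type} [Fintype W] {b : W → W → Kb}
    (hb : LinearIndependent Kb b) {u v : W → Kb}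
    (h : ∀ w, ∑ i, u i * b i w = ∑ i, v i * b i w) : u = v := by
  funext i
  have h1 : ∑ i, (u i - v i) • b i = 0 := by
    funext w
    simp only [Finset.sum_apply, Pi.smul_apply, smul_eq_mul, Pi.zero_apply, sub_mul,
      Finset.sum_sub_distrib, h w, sub_self]
  exact sub_eq_zero.1 (Fintype.linearIndependent_iff.1 hb _ h1 i)

section Fam

variable {P : ValuationSubring Kb} {W : Type} [AddCommGroup W] [Fintype W]
  {act act' : GK → W → W} {O : IOrd P W act} {b X β : W → W → Kb}

/-- Equivariance of the coefficient family. -/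
theorem dualFam_equiv (hact : IsIAction P act) (hb : IsOrdBasis O b)
    (hdual : IsDualAct P act act' X) (hexp : ∀ a w, X a w = ∑ i, β i a * b i w)
    {σ : GK} (hσ : σ ∈ P.inertiaSubgroupIn ℚ) (i a : W) :
    β i (act' σ a) = σ (β i a) := by
  have key : (fun i => β i (act' σ a)) = (fun i => σ (β i a)) := by
    apply dualFam_coeff_unique hb.2.1
    intro w
    have hw : act σ (act σ⁻¹ w) = w := hact.cancel_inv hσ w
    rw [← hexp (act' σ a) w]
    have h1 : X (act' σ a) w = σ (X a (act σ⁻¹ w)) := by
      rw [← hdual σ hσ a (act σ⁻¹ w), hw]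
    rw [h1, hexp a (act σ⁻¹ w), map_sum]
    refine Finset.sum_congr rfl (fun j _ => ?_)
    rw [map_mul, ← O.equiv (b j) (hb.1 j) σ hσ, hw]
  exact congrFun key i

/-- Addition formula for the coefficient family. -/
theorem dualFam_add (hb : IsOrdBasis O b) (hX : IsPairing X)
    (hexp : ∀ a w, X a w = ∑ i, β i a * b i w) (c : W → W → W → Kb)
    (hc : ∀ j k, b j * b k = ∑ i, c j k i • b i) (a a' i : W) :
    β i (a + a') = ∑ j, ∑ k, c j k i * (β j a * β k a') := by
  have key : (fun i => β i (a + a')) = (fun i => ∑ j, ∑ k, c j k i * (β j a * β k a')) := by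
    apply dualFam_coeff_unique hb.2.1
    intro w
    rw [← hexp (a + a') w, hX.add_left, hexp a w, hexp a' w, Finset.sum_mul_sum]
    have h1 : ∀ j k, β j a * b j w * (β k a' * b k w) =
        ∑ i, c j k i * (β j a * β k a') * b i w := by
      intro j k
      have h2 : b j w * b k w = ∑ i, c j k i * b i w := by
        have := congrFun (hc j k) w
        simpa [Finset.sum_apply] using this
      calc β j a * b j w * (β k a' * b k w) = (β j a * β k a') * (b j w * b k w) := by ring
        _ = ∑ i, c j k i * (β j a * β k a') * b i w := by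
            rw [h2, Finset.mul_sum]
            exact Finset.sum_congr rfl (fun i _ => by ring)
    simp only [h1, Finset.sum_mul]
    calc ∑ j, ∑ k, ∑ i, c j k i * (β j a * β k a') * b i w
        = ∑ j, ∑ i, ∑ k, c j k i * (β j a * β k a') * b i w :=
          Finset.sum_congr rfl (fun j _ => Finset.sum_comm)
      _ = ∑ i, ∑ j, ∑ k, c j k i * (β j a * β k a') * b i w := Finset.sum_comm
  exact congrFun key i

/-- Negation formula for the coefficient family. -/
theorem dualFam_neg (hb : IsOrdBasis O b) (hX : IsPairing X)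
    (hexp : ∀ a w, X a w = ∑ i, β i a * b i w) (n : W → W → Kb)
    (hn : ∀ j, (fun w => b j (-w)) = ∑ i, n j i • b i) (a i : W) :
    β i (-a) = ∑ j, n j i * β j a := by
  have key : (fun i => β i (-a)) = (fun i => ∑ j, n j i * β j a) := by
    apply dualFam_coeff_unique hb.2.1
    intro w
    rw [← hexp (-a) w, hX.neg_left, ← hX.neg_right, hexp a (-w)]
    have h1 : ∀ j, β j a * b j (-w) = ∑ i, n j i * β j a * b i w := by
      intro j
      have h2 : b j (-w) = ∑ i, n j i * b i w := by
        have := congrFun (hn j) w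
        simpa [Finset.sum_apply] using this
      rw [h2, Finset.mul_sum]
      exact Finset.sum_congr rfl (fun i _ => by ring)
    simp only [h1, Finset.sum_mul]
    exact Finset.sum_comm
  exact congrFun key i

/-- Congruent points have congruent sums, for the coefficient family. -/
theorem dualFam_add_congr (hb : IsOrdBasis O b) (hX : IsPairing X)
    (hexp : ∀ a w, X a w = ∑ i, β i a * b i w) (hβ : ∀ i a, β i a ∈ P)
    (c : W → W → W → Kb) (hcP : ∀ j k i, c j k i ∈ P)
    (hc : ∀ j k, b j * b k = ∑ i, c j k i • b i) {a₁ a₁' a₂ a₂' : W}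
    (h1 : ∀ j, β j a₁ - β j a₁' ∈ P.nonunits) (h2 : ∀ k, β k a₂ - β k a₂' ∈ P.nonunits)
    (i : W) : β i (a₁ + a₂) - β i (a₁' + a₂') ∈ P.nonunits := by
  rw [dualFam_add hb hX hexp c hc, dualFam_add hb hX hexp c hc, ← Finset.sum_sub_distrib]
  refine red_sum_mem_nonunits P _ _ (fun j _ => ?_)
  rw [← Finset.sum_sub_distrib]
  refine red_sum_mem_nonunits P _ _ (fun k _ => ?_)
  have e : c j k i * (β j a₁ * β k a₂) - c j k i * (β j a₁' * β k a₂') =
      c j k i * ((β j a₁ - β j a₁') * β k a₂ + β j a₁' * (β k a₂ - β k a₂')) := by ring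
  rw [e]
  exact red_mul_mem_nonunits_left P (hcP j k i) (red_add_mem_nonunits P
    (red_mul_mem_nonunits_right P (h1 j) (hβ k a₂))
    (red_mul_mem_nonunits_left P (hβ j a₁') (h2 k)))

/-- The points at which the coefficient family is congruent to its value at `0`. -/
def dualFamKer (P : ValuationSubring Kb) (O : IOrd P W act) (b X β : W → W → Kb)
    (hb : IsOrdBasis O b) (hX : IsPairing X) (hexp : ∀ a w, X a w = ∑ i, β i a * b i w)
    (hβ : ∀ i a, β i a ∈ P) : AddSubgroup W where
  carrier := {a | ∀ i, β i a - β i 0 ∈ P.nonunits}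
  zero_mem' := fun i => by rw [sub_self]; exact red_zero_mem_nonunits P
  add_mem' := by
    intro a a' ha ha' i
    choose c hcR hc using fun j k => hb.2.2 (b j * b k) (O.alg.mul_mem (hb.1 j) (hb.1 k))
    have := dualFam_add_congr hb hX hexp hβ c (fun j k i => (hcR j k i).1) hc ha ha' i
    rwa [add_zero] at this
  neg_mem' := by
    intro a ha i
    choose n hnR hn using fun j => hb.2.2 (fun w => b j (-w)) (O.neg _ (hb.1 j))
    have h0 : β i 0 = β i (-0) := by rw [neg_zero]
    rw [h0, dualFam_neg hb hX hexp n hn, dualFam_neg hb hX hexp n hn, ← Finset.sum_sub_distrib]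
    refine red_sum_mem_nonunits P _ _ (fun j _ => ?_)
    rw [← mul_sub]
    exact red_mul_mem_nonunits_left P (hnR j i).1 (ha j)

/-- The augmentation subgroup of the dual action lies in the kernel. -/
theorem augI_le_dualFamKer (hact : IsIAction P act) (hb : IsOrdBasis O b) (hX : IsPairing X)
    (hdual : IsDualAct P act act' X) (hexp : ∀ a w, X a w = ∑ i, β i a * b i w)
    (hβ : ∀ i a, β i a ∈ P) :
    augI P act' ≤ dualFamKer P O b X β hb hX hexp hβ := by
  unfold augI augOn
  rw [AddSubgroup.closure_le]
  rintro _ ⟨σ, hσ, a, -, rfl⟩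
  intro i
  choose c hcR hc using fun j k => hb.2.2 (b j * b k) (O.alg.mul_mem (hb.1 j) (hb.1 k))
  have h1 : ∀ j, β j (act' σ a) - β j a ∈ P.nonunits := by
    intro j
    rw [dualFam_equiv hact hb hdual hexp hσ]
    exact Fermat.Agent.Cyclo.inertia_sub_mem_nonunits P hσ (hβ j a)
  have h2 : ∀ k, β k (-a) - β k (-a) ∈ P.nonunits := by
    intro k
    rw [sub_self]
    exact red_zero_mem_nonunits P
  have := dualFam_add_congr hb hX hexp hβ c (fun j k i => (hcR j k i).1) hc h1 h2 i
  rwa [← sub_eq_add_neg, ← sub_eq_add_neg, sub_self] at this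

end Fam

/-- **DUALFAM**. -/
theorem dualFam (p : ℕ) (P : ValuationSubring Kb) : DualFamProp p P := by
  intro _ _ W _ _ act act' O b X β hact _ hb hX hdual hexp hβ
  refine ⟨fun σ hσ i a => dualFam_equiv hact hb hdual hexp hσ i a, fun a ha i => ?_⟩
  exact augI_le_dualFamKer hact hb hX hdual hexp hβ ha i

end Fermat.Agent.S56.SS
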