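/-
S56, WALL W4, CASE C, BLOCK D, leaf **ORBIT** (helper15): a permutation `γ` of a finite pointed
set with `γ ^ d = 1` which is free outside the base point decomposes the set as
`{o} ⊔ (m orbits of length d)`.
-/
import Fermat.Agent.S56.W4.C.D.Defs

set_option autoImplicit false

namespace Fermat.Agent.S56.SS

/-- `γ^[d] = id` gives `γ^[d * k] = id`. -/
theorem orbitAux_iter_mul {W : Type} (γ : W → W) (d : ℕ) (h : ∀ w, γ^[d] w = w) (k : ℕ) (w : W) :
    γ^[d * k] w = w := by
  induction k with
  | zero => simp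
  | succ k ih =>
    rw [Nat.mul_succ, Function.iterate_add_apply, h, ih]

/-- Reduce the exponent modulo `d`. -/
theorem orbitAux_iter_mod {W : Type} (γ : W → W) (d : ℕ) (h : ∀ w, γ^[d] w = w) (s : ℕ) (w : W) :
    γ^[s % d] w = γ^[s] w := by
  conv_rhs => rw [← Nat.mod_add_div s d]
  rw [Function.iterate_add_apply, orbitAux_iter_mul γ d h]

/-- `γ` is injective. -/
theorem orbitAux_injective {W : Type} (γ : W → W) (d : ℕ) (hd : 0 < d) (h : ∀ w, γ^[d] w = w) :
    Function.Injective γ := by
  intro a b hab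
  have h1 : γ^[d - 1] (γ a) = γ^[d - 1] (γ b) := by rw [hab]
  rw [← Function.iterate_succ_apply, ← Function.iterate_succ_apply] at h1
  have h2 : (d - 1).succ = d := by omega
  rw [h2, h, h] at h1
  exact h1

/-- The orbit relation of `γ`. -/
def orbitAuxSetoid {W : Type} (γ : W → W) (d : ℕ) (hd : 0 < d) (h : ∀ w, γ^[d] w = w) :
    Setoid W where
  r a b := ∃ s : ℕ, γ^[s] a = b
  iseqv :=
    { refl := fun a => ⟨0, rfl⟩
      symm := by
        rintro a b ⟨s, rfl⟩
        refine ⟨(d - 1) * s, ?_⟩
        rw [← Function.iterate_add_apply]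
        have h5 : (d - 1) * s + s = d * s := by
          obtain ⟨e, rfl⟩ : ∃ e, d = e + 1 := ⟨d - 1, by omega⟩
          simp only [Nat.add_sub_cancel]
          ring
        rw [h5, orbitAux_iter_mul γ d h]
      trans := by
        rintro a b c ⟨s, rfl⟩ ⟨t, rfl⟩
        exact ⟨t + s, by rw [Function.iterate_add_apply]⟩ }

/-- **ORBIT**. -/
theorem orbitProp : OrbitProp := by
  intro W _ o γ d hd ho hγ hfree
  classical
  have hinj : Function.Injective γ := orbitAux_injective γ d hd hγ
  have hinjs : ∀ s : ℕ, Function.Injective (γ^[s]) := fun s => hinj.iterate s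
  have hos : ∀ s : ℕ, γ^[s] o = o := fun s => Function.iterate_fixed ho s
  let S : Setoid W := orbitAuxSetoid γ d hd hγ
  let Ω : Type := {ω : Quotient S // ω ≠ Quotient.mk S o}
  have : Finite Ω := inferInstance
  let m : ℕ := Nat.card Ω
  let eΩ : Fin m ≃ Ω := (Finite.equivFin Ω).symm
  let rep : Fin m → W := fun j => Quotient.out (eΩ j).1
  have hrep_ne : ∀ j, rep j ≠ o := by
    intro j hj
    apply (eΩ j).2
    have : Quotient.mk S (rep j) = (eΩ j).1 := Quotient.out_eq _
    rw [← this, hj]
  have hrep_rel : ∀ j j', S.r (rep j) (rep j') → j = j' := by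
    intro j j' hr
    have h1 : Quotient.mk S (rep j) = Quotient.mk S (rep j') := Quotient.sound hr
    have h2 : Quotient.mk S (rep j) = (eΩ j).1 := Quotient.out_eq _
    have h3 : Quotient.mk S (rep j') = (eΩ j').1 := Quotient.out_eq _
    rw [h2, h3] at h1
    exact eΩ.injective (Subtype.ext h1)
  let F : Unit ⊕ Fin m × Fin d → W := fun x =>
    match x with
    | Sum.inl _ => o
    | Sum.inr (j, s) => γ^[(s : ℕ)] (rep j)
  have hFl : ∀ u, F (Sum.inl u) = o := fun _ => rfl
  have hFr : ∀ j s, F (Sum.inr (j, s)) = γ^[(s : ℕ)] (rep j) := fun _ _ => rfl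
  have key : ∀ (x : W) (s t : ℕ), x ≠ o → s ≤ t → t < d → γ^[s] x = γ^[t] x → s = t := by
    intro x s t hx hst htd hxx
    by_contra hne
    have hlt : s < t := lt_of_le_of_ne hst hne
    have h1 : γ^[s] x = γ^[s] (γ^[t - s] x) := by
      rw [← Function.iterate_add_apply]
      have : s + (t - s) = t := by omega
      rw [this]
      exact hxx
    have h2 := hinjs s h1
    exact hfree x hx (t - s) (by omega) (by omega) h2.symm
  have hFinj : Function.Injective F := by
    rintro (u | ⟨j, s⟩) (u' | ⟨j', s'⟩) hxy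
    · rfl
    · exfalso
      rw [hFl u, hFr] at hxy
      apply hrep_ne j'
      apply hinjs (s' : ℕ)
      rw [← hxy, hos]
    · exfalso
      rw [hFl u', hFr] at hxy
      apply hrep_ne j
      apply hinjs (s : ℕ)
      rw [hxy, hos]
    · rw [hFr, hFr] at hxy
      have hjj : j = j' := by
        apply hrep_rel
        have h1 : S.r (rep j) (γ^[(s : ℕ)] (rep j)) := ⟨s, rfl⟩
        have h2 : S.r (rep j') (γ^[(s' : ℕ)] (rep j')) := ⟨s', rfl⟩
        rw [← hxy] at h2
        exact S.iseqv.trans h1 (S.iseqv.symm h2)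
      subst hjj
      have hss : (s : ℕ) = (s' : ℕ) := by
        rcases le_total (s : ℕ) (s' : ℕ) with hle | hle
        · exact key (rep j) s s' (hrep_ne j) hle s'.2 hxy
        · exact (key (rep j) s' s (hrep_ne j) hle s.2 hxy.symm).symm
      rw [Fin.ext hss]
  have hFsurj : Function.Surjective F := by
    intro w
    by_cases hw : w = o
    · exact ⟨Sum.inl (), by rw [hFl (), hw]⟩
    · have hne : Quotient.mk S w ≠ Quotient.mk S o := by
        intro hq
        obtain ⟨s, hs⟩ : S.r w o := Quotient.exact hq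
        apply hw
        apply hinjs s
        rw [hs, hos]
      let j : Fin m := eΩ.symm ⟨Quotient.mk S w, hne⟩
      have hj : (eΩ j).1 = Quotient.mk S w := by
        simp only [j, Equiv.apply_symm_apply]
      have hr : S.r (rep j) w := by
        apply Quotient.exact
        rw [Quotient.out_eq, hj]
      obtain ⟨s, hs⟩ := hr
      refine ⟨Sum.inr (j, ⟨s % d, Nat.mod_lt s hd⟩), ?_⟩
      rw [hFr]
      simp only
      rw [orbitAux_iter_mod γ d hγ, hs]
  refine ⟨m, Equiv.ofBijective F ⟨hFinj, hFsurj⟩, ?_, ?_⟩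
  · rfl
  · intro j s
    rfl

end Fermat.Agent.S56.SS
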