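/-
S56, WALL W4, CASE C, BLOCK D, leaf **SCHUR** (helper15): a commutative action of inertia on a
finite group without stable subgroups is through a cyclic group.

Proof: the subring `E` of `AddMonoid.End W` generated by the `act σ` (`σ ∈ I`) is commutative and
a domain (the kernel of `a ∈ E` is a stable subgroup), and the `act σ` form a finite subgroup of
`Eˣ`, which is cyclic.
-/
import Fermat.Agent.S56.W4.C.D.Defs

set_option autoImplicit false

namespace Fermat.Agent.S56.SS

open Fermat.Agent.FFL

local notation "Kb" => AlgebraicClosure ℚ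
local notation "GK" => (AlgebraicClosure ℚ ≃ₐ[ℚ] AlgebraicClosure ℚ)

/-- The action of inertia as a monoid homomorphism to the endomorphism ring of `W`. -/
def schurAuxHom (P : ValuationSubring Kb) {W : Type} [AddCommGroup W] (act : GK → W → W)
    (h : IsIAction P act) : (P.inertiaSubgroupIn ℚ) →* AddMonoid.End W where
  toFun σ := AddMonoidHom.mk' (act σ.1) (h.1 σ.1 σ.2)
  map_one' := by
    ext w
    exact h.2.1 w
  map_mul' σ τ := by
    ext w
    exact h.2.2 σ.1 σ.2 τ.1 τ.2 w

theorem schurAuxHom_apply (P : ValuationSubring Kb) {W : Type} [AddCommGroup W]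
    (act : GK → W → W) (h : IsIAction P act) (σ : P.inertiaSubgroupIn ℚ) (w : W) :
    schurAuxHom P act h σ w = act σ.1 w := rfl

/-- The generators commute. -/
theorem schurAux_comm (P : ValuationSubring Kb) {W : Type} [AddCommGroup W]
    (act : GK → W → W) (h : IsIAction P act) (hc : IsCommAct P act) :
    ∀ x ∈ Set.range (schurAuxHom P act h), ∀ y ∈ Set.range (schurAuxHom P act h),
      x * y = y * x := by
  rintro _ ⟨σ, rfl⟩ _ ⟨τ, rfl⟩
  ext w
  exact hc σ.1 σ.2 τ.1 τ.2 w

/-- An endomorphism commuting with the action is zero or injective; so a product which is zero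
has a zero factor. -/
theorem schurAux_zero_or (P : ValuationSubring Kb) {W : Type} [AddCommGroup W]
    (act : GK → W → W) (h : IsIAction P act) (hs : IsSimpleAct P act)
    (a b : AddMonoid.End W)
    (hcomm : ∀ σ : P.inertiaSubgroupIn ℚ, a * schurAuxHom P act h σ = schurAuxHom P act h σ * a)
    (hab : a * b = 0) : a = 0 ∨ b = 0 := by
  let N : AddSubgroup W :=
    { carrier := {w | a w = 0}
      zero_mem' := map_zero a
      add_mem' := fun {x y} hx hy => by
        have hx' : a x = 0 := hx
        have hy' : a y = 0 := hy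
        change a (x + y) = 0
        rw [map_add, hx', hy', add_zero]
      neg_mem' := fun {x} hx => by
        have hx' : a x = 0 := hx
        change a (-x) = 0
        rw [map_neg, hx', neg_zero] }
  have hN : ∀ w, w ∈ N ↔ a w = 0 := fun w => Iff.rfl
  have hstab : ∀ σ ∈ P.inertiaSubgroupIn ℚ, ∀ n ∈ N, act σ n ∈ N := by
    intro σ hσ n hn
    rw [hN] at hn ⊢
    have h1 := DFunLike.congr_fun (hcomm ⟨σ, hσ⟩) n
    simp only [AddMonoid.End.coe_mul, Function.comp_apply, schurAuxHom_apply] at h1
    rw [h1, hn]
    exact map_zero (schurAuxHom P act h ⟨σ, hσ⟩)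
  rcases hs N hstab with h0 | h1
  · right
    ext w
    have h2 : b w ∈ N := by
      rw [hN]
      exact DFunLike.congr_fun hab w
    rw [h0, AddSubgroup.mem_bot] at h2
    exact h2
  · left
    ext w
    have h2 : w ∈ N := by rw [h1]; exact AddSubgroup.mem_top w
    exact (hN w).1 h2

/-- **SCHUR**. -/
theorem schurProp (P : ValuationSubring Kb) : SchurProp P := by
  intro W _ _ act h hc hs
  classical
  rcases subsingleton_or_nontrivial W with hW | hW
  · exact ⟨1, Subgroup.one_mem _, fun σ _ => ⟨0, fun w => Subsingleton.elim _ _⟩⟩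
  let φ := schurAuxHom P act h
  let E : Subring (AddMonoid.End W) := Subring.closure (Set.range φ)
  have hEc : IsMulCommutative E := Subring.isMulCommutative_closure (schurAux_comm P act h hc)
  let : CommRing E := { (inferInstance : Ring E) with mul_comm := hEc.is_comm.comm }
  have hφE : ∀ σ, φ σ ∈ E := fun σ => Subring.subset_closure ⟨σ, rfl⟩
  have : Finite (AddMonoid.End W) :=
    Finite.of_injective (fun f : AddMonoid.End W => (f : W → W)) DFunLike.coe_injective
  have : Finite E := inferInstance
  have : Nontrivial E := by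
    obtain ⟨x, y, hxy⟩ := exists_pair_ne W
    refine ⟨⟨0, 1, fun h01 => hxy ?_⟩⟩
    have h1 : ((0 : E) : AddMonoid.End W) = ((1 : E) : AddMonoid.End W) := by rw [h01]
    have h2 : (0 : AddMonoid.End W) = 1 := h1
    have hx := DFunLike.congr_fun h2 x
    have hy := DFunLike.congr_fun h2 y
    simp only [AddMonoid.End.zero_apply, AddMonoid.End.one_apply] at hx hy
    rw [← hx, ← hy]
  have : NoZeroDivisors E := by
    refine ⟨fun {a b} hab => ?_⟩
    have hab' : (a : AddMonoid.End W) * (b : AddMonoid.End W) = 0 := by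
      have := congrArg (fun e : E => (e : AddMonoid.End W)) hab
      exact this
    have hcomm : ∀ σ : P.inertiaSubgroupIn ℚ, (a : AddMonoid.End W) * schurAuxHom P act h σ
        = schurAuxHom P act h σ * (a : AddMonoid.End W) := by
      intro σ
      have := congrArg (fun e : E => (e : AddMonoid.End W)) (mul_comm a ⟨φ σ, hφE σ⟩)
      exact this
    rcases schurAux_zero_or P act h hs a b hcomm hab' with h0 | h0
    · left
      exact Subtype.ext h0
    · right
      exact Subtype.ext h0
  have : IsDomain E := NoZeroDivisors.to_isDomain E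
  -- the action as a homomorphism to the units of `E`
  let φE : (P.inertiaSubgroupIn ℚ) →* E :=
    { toFun := fun σ => ⟨φ σ, hφE σ⟩
      map_one' := Subtype.ext (map_one φ)
      map_mul' := fun σ τ => Subtype.ext (map_mul φ σ τ) }
  let φU : (P.inertiaSubgroupIn ℚ) →* Eˣ := φE.toHomUnits
  let S : Subgroup Eˣ := φU.range
  have : Finite S := inferInstance
  have : IsCyclic S := isCyclic_subgroup_units S
  obtain ⟨⟨x, τ₀, hτ₀⟩, hx⟩ := IsCyclic.exists_monoid_generator (α := S)
  refine ⟨τ₀.1, τ₀.2, fun σ hσ => ?_⟩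
  obtain ⟨n, hn⟩ := hx ⟨φU ⟨σ, hσ⟩, ⟨σ, hσ⟩, rfl⟩
  refine ⟨n, fun w => ?_⟩
  have h1 : x ^ n = φU ⟨σ, hσ⟩ := by
    have := congrArg (fun s : S => (s : Eˣ)) hn
    simpa using this
  rw [← hτ₀] at h1
  have h2 : (φE τ₀) ^ n = φE ⟨σ, hσ⟩ := by
    have := congrArg (fun u : Eˣ => (u : E)) h1
    simpa [φU] using this
  have h3 : (φ τ₀) ^ n = φ ⟨σ, hσ⟩ := by
    have := congrArg (fun e : E => (e : AddMonoid.End W)) h2
    simpa [φE] using this
  have h4 := DFunLike.congr_fun h3 w
  rw [AddMonoid.End.coe_pow] at h4
  exact h4.symm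

end Fermat.Agent.S56.SS
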