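/-
S56 W4 case C, block D (sub-architect helper26): **FINAL**.  `t3Prop : T3Prop p P` and
`orderPProp : OrderPProp p P`, unconditional.

Leaves: BASIS (helper97), CHAR, PAIR, DUALDET, DUALACT, DUALFAM, RED (helper50 and others),
SCHUR, ORBIT (helper15), DISC + assembly (helper26).
-/
import Fermat.Agent.S56.W4.C.D.Asm
import Fermat.Agent.S56.W4.C.D.Basis
import Fermat.Agent.S56.W4.C.D.Char
import Fermat.Agent.S56.W4.C.D.Pair
import Fermat.Agent.S56.W4.C.D.DualDet
import Fermat.Agent.S56.W4.C.D.DualAct
import Fermat.Agent.S56.W4.C.D.DualFam
import Fermat.Agent.S56.W4.C.D.Red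
import Fermat.Agent.S56.W4.C.D.Schur
import Fermat.Agent.S56.W4.C.D.Orbit

set_option autoImplicit false

namespace Fermat.Agent.S56.SS

open Fermat.Agent.FFL

local notation "Kb" => AlgebraicClosure ℚ

/-- All the leaves of block D. -/
theorem dLeaves (p : ℕ) (P : ValuationSubring Kb) : DLeaves p P where
  basis := basisProp p P
  char := charProp p P
  pair := pairProp
  det := dualDet
  dact := dualAct P
  fam := dualFam p P
  red := redProp P
  schur := schurProp P
  orbit := orbitProp

/-- **T3** (block D): an `I`-order on a simple module of order `p²` with cyclic inertia action: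
inertia is transitive on `W \ 0` and some `Z` with `Z 0 = 0` has valuation `1 / (p² - 1)` on
`W \ 0`. -/
theorem t3Prop (p : ℕ) (P : ValuationSubring Kb) : T3Prop p P :=
  t3Prop_of_leaves (dLeaves p P)

/-- **Order `p`** (block D): on a module of order `p` carrying an `I`-order, inertia acts
trivially or through the cyclotomic character. -/
theorem orderPProp (p : ℕ) (P : ValuationSubring Kb) : OrderPProp p P :=
  orderPProp_of_leaves (dLeaves p P)

end Fermat.Agent.S56.SS
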